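/-
Row 38, block R (RET), seat R-CHI (generic core, no block-R definitions).  Owner: helper17.

Going-up for the Hecke algebra of level `N` away from `S`: a PROPER ideal `𝔞` of
`heckeAlgebra N 2 S` is contained in the "congruence ideal" of a normalised eigenform `g`
of level `N`: there is a maximal ideal `𝔪` of `ℤ̄` and a ring homomorphism
`lam : heckeAlgebra N 2 S → ℤ̄` (the eigen-character of `g`) with `lam 𝔞 ⊆ 𝔪`.

Route (Deligne–Serre): maximal ideal `𝔫 ⊇ 𝔞`; a prime `Q` of the full Hecke algebra `𝕋_∅` over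
`𝔫` (lying over; both algebras are finite over `ℤ`, S22); common eigenvector of `𝕋_∅` whose
character `Ψ` has `ker Ψ ⊆ Q` (S49 library); eigenvalues are algebraic integers; a maximal
ideal `𝔪 ⊇ Ψ(Q)` of `ℤ̄`; normalise the eigenvector (S49 library).
-/
import Fermat.Prelude.Def_CuspForm_HeckeAlgebra
import Fermat.Prelude.Def_FLTPrelim_Modularity
import Fermat.Agent.S22
import Fermat.Agent.S23.FiniteDim
import Fermat.Agent.S49.H91Eigen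
import Fermat.Agent.S49.H91StepC

set_option autoImplicit false
set_option linter.style.haveILetI false

namespace Fermat.Agent.R38Ret

open CuspForm

/-- Abstract core: `𝕋₁ ⊆ 𝕋₂` integral over `ℤ`, `𝕋₂` acting faithfully on a nonzero
finite-dimensional complex vector space, `𝔞` a proper ideal of `𝕋₁`.  Then there are a common
eigenvector `v` of `𝕋₂` with character `Ψ` (values in `ℤ̄`) and a maximal ideal `𝔪` of `ℤ̄` with
`Ψ (ι t) ∈ 𝔪` for every `t ∈ 𝔞`. -/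
theorem chi_abstract
    {V : Type*} [AddCommGroup V] [Module ℂ V] [FiniteDimensional ℂ V] [Nontrivial V]
    {𝕋₁ 𝕋₂ : Type*} [CommRing 𝕋₁] [CommRing 𝕋₂]
    (hint₂ : Algebra.IsIntegral ℤ 𝕋₂)
    (ι : 𝕋₁ →+* 𝕋₂) (hι : Function.Injective ι)
    (ρ : 𝕋₂ →+* Module.End ℂ V) (hρ : Function.Injective ρ)
    (𝔞 : Ideal 𝕋₁) (h𝔞 : 𝔞 ≠ ⊤) :
    ∃ v : V, v ≠ 0 ∧ ∃ (Ψ : 𝕋₂ →+* integralClosure ℤ ℂ) (𝔪 : Ideal (integralClosure ℤ ℂ)),
      𝔪.IsMaximal ∧ (∀ t, ρ t v = ((Ψ t : integralClosure ℤ ℂ) : ℂ) • v) ∧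
      ∀ t ∈ 𝔞, Ψ (ι t) ∈ 𝔪 := by
  classical
  letI : Algebra 𝕋₁ 𝕋₂ := ι.toAlgebra
  have halg : ∀ t : 𝕋₁, algebraMap 𝕋₁ 𝕋₂ t = ι t := fun _ => rfl
  have hint₂₁ : Algebra.IsIntegral 𝕋₁ 𝕋₂ := by
    refine ⟨fun x => ?_⟩
    obtain ⟨p, hp, hpx⟩ := hint₂.isIntegral x
    refine ⟨p.map (Int.castRingHom 𝕋₁), hp.map _, ?_⟩
    rw [Polynomial.eval₂_map]
    have : (algebraMap 𝕋₁ 𝕋₂).comp (Int.castRingHom 𝕋₁) = algebraMap ℤ 𝕋₂ :=
      RingHom.ext_int _ _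
    rw [this]
    exact hpx
  obtain ⟨𝔫, h𝔫max, h𝔞𝔫⟩ := Ideal.exists_le_maximal 𝔞 h𝔞
  haveI : 𝔫.IsPrime := h𝔫max.isPrime
  obtain ⟨Q, -, hQ, hQ𝔫⟩ := Ideal.exists_ideal_over_prime_of_isIntegral 𝔫
    (⊥ : Ideal 𝕋₂) (by
      intro t ht
      rw [Ideal.mem_comap, Ideal.mem_bot, halg] at ht
      have : t = 0 := hι (ht.trans (map_zero ι).symm)
      rw [this]
      exact Ideal.zero_mem _)
  obtain ⟨v, hv, χ, hχ, hχQ⟩ := Fermat.Agent.S49h91.exists_common_eigenvector_of_prime ρ Q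
    (fun t ht => by
      have : t = 0 := hρ (ht.trans (map_zero ρ).symm)
      rw [this]
      exact Ideal.zero_mem _)
  -- eigenvalues are algebraic integers
  have hint' : ∀ t, χ t ∈ integralClosure ℤ ℂ := fun t => by
    obtain ⟨P, hPm, hP⟩ := hint₂.isIntegral t
    refine ⟨P, hPm, ?_⟩
    have h1 : Polynomial.eval₂ (algebraMap ℤ ℂ) (χ t) P
        = χ (Polynomial.eval₂ (algebraMap ℤ 𝕋₂) t P) := by
      rw [Polynomial.hom_eval₂]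
      congr 1
      exact (RingHom.ext_int _ _)
    rw [h1, hP, map_zero]
  let lam : 𝕋₂ →+* integralClosure ℤ ℂ := χ.codRestrict (integralClosure ℤ ℂ) hint'
  have hlam : ∀ t, ((lam t : integralClosure ℤ ℂ) : ℂ) = χ t := fun t => rfl
  have hlamint : lam.IsIntegral := by
    apply RingHom.IsIntegral.tower_top (Int.castRingHom 𝕋₂) lam
    have : lam.comp (Int.castRingHom 𝕋₂) = algebraMap ℤ (integralClosure ℤ ℂ) :=
      RingHom.ext_int _ _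
    rw [this]
    exact algebraMap_isIntegral_iff.mpr inferInstance
  have hker : RingHom.ker lam ≤ Q := fun t ht => by
    apply hχQ
    rw [← hlam, (RingHom.mem_ker).mp ht]
    rfl
  have hmap : Q.map lam ≠ ⊤ := fun h =>
    hQ.ne_top ((Ideal.map_eq_top_iff_of_ker_le lam hker hlamint).mp h)
  obtain ⟨𝔪, h𝔪max, h𝔪⟩ := Ideal.exists_le_maximal _ hmap
  refine ⟨v, hv, lam, 𝔪, h𝔪max, fun t => by rw [hlam]; exact hχ t, ?_⟩
  intro t ht
  apply h𝔪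
  apply Ideal.mem_map_of_mem
  have h1 : t ∈ Q.comap (algebraMap 𝕋₁ 𝕋₂) := by rw [hQ𝔫]; exact h𝔞𝔫 ht
  exact h1

/-- **Going-up (ideal form).**  A proper ideal `𝔞` of the Hecke algebra of level `N` away from
`S` lies under a normalised eigenform: there are a normalised eigenform `g`, a maximal ideal `𝔪`
of `ℤ̄` and a ring homomorphism `lam` (the eigen-character) with `lam 𝔞 ⊆ 𝔪` and
`lam (T_ℓ) = a_ℓ(g)`. -/
theorem chi_goingUp_ideal {N : ℕ} [NeZero N] (S : Set ℕ)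
    (𝔞 : Ideal (heckeAlgebra N 2 S)) (h𝔞 : 𝔞 ≠ ⊤) :
    ∃ (g : CuspForm (CongruenceSubgroup.Gamma0 N) 2) (𝔪 : Ideal (integralClosure ℤ ℂ))
      (lam : heckeAlgebra N 2 S →+* integralClosure ℤ ℂ),
      g.IsNormalizedEigenform ∧ 𝔪.IsMaximal ∧ (∀ t ∈ 𝔞, lam t ∈ 𝔪) ∧
      ∀ (ℓ : ℕ) (hℓ : ℓ.Prime) (hℓN : ¬ ℓ ∣ N) (hℓS : ℓ ∉ S),
        ((lam (heckeAlgebra.T hℓ hℓN hℓS) : integralClosure ℤ ℂ) : ℂ)
          = ModularFormClass.qCoeff g ℓ := by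
  classical
  haveI hfd : FiniteDimensional ℂ (CuspForm (CongruenceSubgroup.Gamma0 N) 2) :=
    Fermat.Agent.S23.finiteDimensional_cuspForm N 2
  haveI hfin₂ : Module.Finite ℤ (heckeAlgebra N 2 (∅ : Set ℕ)) := Fermat.Agent.S22.result N 2 ∅
  have hint₂ : Algebra.IsIntegral ℤ (heckeAlgebra N 2 (∅ : Set ℕ)) := inferInstance
  -- the space of cusp forms is nontrivial since the Hecke algebra has a proper ideal
  haveI hnt : Nontrivial (CuspForm (CongruenceSubgroup.Gamma0 N) 2) := by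
    by_contra hsub
    rw [not_nontrivial_iff_subsingleton] at hsub
    have h01 : (0 : heckeAlgebra N 2 S) = 1 := by
      apply Subtype.ext
      apply LinearMap.ext
      intro x
      exact Subsingleton.elim _ _
    apply h𝔞
    rw [Ideal.eq_top_iff_one, ← h01]
    exact Ideal.zero_mem _
  let ι : heckeAlgebra N 2 S →+* heckeAlgebra N 2 (∅ : Set ℕ) :=
    (Subalgebra.inclusion (heckeAlgebra_mono (N := N) (k := 2) (Set.empty_subset S))).toRingHom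
  have hι : Function.Injective ι :=
    Subalgebra.inclusion_injective (heckeAlgebra_mono (N := N) (k := 2) (Set.empty_subset S))
  let ρ : heckeAlgebra N 2 (∅ : Set ℕ) →+*
      Module.End ℂ (CuspForm (CongruenceSubgroup.Gamma0 N) 2) :=
    (heckeAlgebra N 2 (∅ : Set ℕ)).val.toRingHom
  have hρ : Function.Injective ρ := Subtype.val_injective
  obtain ⟨v, hv, Ψ, 𝔪, h𝔪, hΨ, hΨ𝔞⟩ := chi_abstract hint₂ ι hι ρ hρ 𝔞 h𝔞
  set θ : ℕ → ℂ := fun ℓ =>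
    if h : ℓ.Prime then
      (if hN : ℓ ∣ N then ((Ψ (heckeAlgebra.U h hN (Set.notMem_empty ℓ)) : integralClosure ℤ ℂ) : ℂ)
        else ((Ψ (heckeAlgebra.T h hN (Set.notMem_empty ℓ)) : integralClosure ℤ ℂ) : ℂ))
    else 0 with hθ
  have hT : ∀ (ℓ : ℕ) (hℓ : ℓ.Prime) (hℓN : ¬ ℓ ∣ N),
      CuspForm.heckeTLin 2 hℓ hℓN v = θ ℓ • v := by
    intro ℓ hℓ hℓN
    have h := hΨ (heckeAlgebra.T hℓ hℓN (Set.notMem_empty ℓ))
    have hθℓ : θ ℓ = ((Ψ (heckeAlgebra.T hℓ hℓN (Set.notMem_empty ℓ)) :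
        integralClosure ℤ ℂ) : ℂ) := by
      simp only [hθ, dif_pos hℓ, dif_neg hℓN]
    rw [hθℓ]
    exact h
  have hU : ∀ (ℓ : ℕ) (_ : ℓ.Prime) (hℓN : ℓ ∣ N),
      CuspForm.heckeULin 2 hℓN v = θ ℓ • v := by
    intro ℓ hℓ hℓN
    have h := hΨ (heckeAlgebra.U hℓ hℓN (Set.notMem_empty ℓ))
    have hθℓ : θ ℓ = ((Ψ (heckeAlgebra.U hℓ hℓN (Set.notMem_empty ℓ)) :
        integralClosure ℤ ℂ) : ℂ) := by
      simp only [hθ, dif_pos hℓ, dif_pos hℓN]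
    rw [hθℓ]
    exact h
  obtain ⟨g, hg, hgθ⟩ :=
    Fermat.Agent.S49h91.exists_normalizedEigenform_of_eigenvector v hv θ hT hU
  refine ⟨g, 𝔪, Ψ.comp ι, hg, h𝔪, fun t ht => hΨ𝔞 t ht, ?_⟩
  intro ℓ hℓ hℓN hℓS
  rw [hgθ ℓ hℓ]
  simp only [hθ, dif_pos hℓ, dif_neg hℓN]
  rfl

/-- **Going-up (R-CHI), generator form.**  If the ideal of `heckeAlgebra N 2 S` generated by `p`
and the `T_ℓ - a ℓ` (`ℓ ∉ S` prime, `ℓ ∤ N`) is proper, there is a normalised eigenform `g` of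
level `N` and a maximal ideal `𝔪 ∋ p` of `ℤ̄` with `a_ℓ(g) ≡ a ℓ mod 𝔪` for all these `ℓ`. -/
theorem chi_goingUp {N : ℕ} [NeZero N] (S : Set ℕ) (p : ℕ) (a : ℕ → ℤ)
    (h : Ideal.span ({(p : heckeAlgebra N 2 S)} ∪
        {t | ∃ (ℓ : ℕ) (hℓ : ℓ.Prime) (hℓN : ¬ ℓ ∣ N) (hℓS : ℓ ∉ S),
          t = heckeAlgebra.T hℓ hℓN hℓS - (a ℓ : heckeAlgebra N 2 S)}) ≠ ⊤) :
    ∃ (g : CuspForm (CongruenceSubgroup.Gamma0 N) 2) (𝔪 : Ideal (integralClosure ℤ ℂ)),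
      g.IsNormalizedEigenform ∧ 𝔪.IsMaximal ∧ (p : integralClosure ℤ ℂ) ∈ 𝔪 ∧
      ∀ ℓ : ℕ, ℓ.Prime → ¬ ℓ ∣ N → ℓ ∉ S →
        ∃ α : integralClosure ℤ ℂ, (α : ℂ) = ModularFormClass.qCoeff g ℓ ∧
          α - ((a ℓ : ℤ) : integralClosure ℤ ℂ) ∈ 𝔪 := by
  obtain ⟨g, 𝔪, lam, hg, h𝔪, hlam, hT⟩ := chi_goingUp_ideal S _ h
  refine ⟨g, 𝔪, hg, h𝔪, ?_, ?_⟩
  · have := hlam _ (Ideal.subset_span (Or.inl rfl))
    rwa [map_natCast] at this
  · intro ℓ hℓ hℓN hℓS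
    refine ⟨lam (heckeAlgebra.T hℓ hℓN hℓS), hT ℓ hℓ hℓN hℓS, ?_⟩
    have := hlam _ (Ideal.subset_span (Or.inr ⟨ℓ, hℓ, hℓN, hℓS, rfl⟩))
    rwa [map_sub, map_intCast] at this

end Fermat.Agent.R38Ret
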