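import Mathlib
import Fermat.Agent.R38.Ret.BridgeDefs
import Fermat.Agent.Lib.Kronecker.Integral
import Fermat.Agent.Lib.Kronecker.Prod

/-!
# Row 38, block R, seat R-6k (helper84): `NpfRed p`

The reduction (Gauss valuation at a place `A` of `ℚ̄` over `p`) of the Hecke norm
`T_ℓ f = Norm_{F_{Nℓ}/F_N} (f(q^ℓ))` is the formal norm of the reduction of `f`, for every
prime `ℓ ≠ p`, `ℓ ∤ N`, at every level `N`.

* `npf_integral` : the integral product formula: for `y ∈ A((q)) ∩ F_N` there is `z ∈ A((q))`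
  with `emb z = T_ℓ y` and `z(q^ℓ) = y(q^{ℓ²}) ∏_{b<ℓ} y(ζ^b q)` over `A`;
* `isPrimitiveRoot_residue_units` : a primitive `ℓ`-th root of unity of `A` stays primitive in
  the residue field when `ℓ` is prime to the residue characteristic;
* `isPres_heckeFun` : presentations are carried to presentations;
* `npfRed : NpfRed p`.
-/

set_option autoImplicit false
set_option synthInstance.maxHeartbeats 400000
set_option linter.unusedVariables false
set_option linter.style.longLine false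
set_option linter.unusedSectionVars false

noncomputable section

namespace Fermat.Agent.R38Ret

open ModularCurve AlgebraicCurve HahnSeries Fermat.Agent.GaussInt Fermat.Agent.Kronecker
  Fermat.Agent.F3G Fermat.Agent.AtkinLehner

local notation "Qb" => AlgebraicClosure ℚ

/-- **Integral product formula**: for `y ∈ A((q)) ∩ F_N` the function `T_ℓ y` has coefficients
in `A`, and the product formula holds over `A`, for ONE primitive root `ζ_A ∈ Aˣ`. -/
theorem npf_integral (N ℓ : ℕ) [NeZero N] [NeZero ℓ] (hℓ : ℓ.Prime) (hℓN : ¬ ℓ ∣ N)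
    (A : ValuationSubring Qb) :
    ∃ ζA : (↥A)ˣ, IsPrimitiveRoot ζA ℓ ∧
      ∀ (y : LaurentSeries A) (hy : emb A y ∈ modularFunctionFieldBar N),
        ∃ z : LaurentSeries A,
          emb A z = ((heckeFun Qb N ℓ ⟨emb A y, hy⟩ : ↥(modularFunctionFieldBar N)) :
            LaurentSeries Qb) ∧
          qExpand ↥A ℓ z =
            qExpand ↥A (ℓ * ℓ) y * ∏ b ∈ Finset.range ℓ, scaleL (ζA ^ b) y := by
  obtain ⟨ζ, hζ, hform⟩ := normProductFormula N ℓ hℓ hℓN
  have hℓ0 : 0 < ℓ := hℓ.pos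
  have hζpow : ((ζ : Qbˣ) : Qb) ^ ℓ = 1 := by
    rw [← Units.val_pow_eq_pow_val, hζ.pow_eq_one, Units.val_one]
  have hζinv : ((ζ⁻¹ : Qbˣ) : Qb) ^ ℓ = 1 := by
    rw [← Units.val_pow_eq_pow_val, inv_pow, hζ.pow_eq_one, inv_one, Units.val_one]
  have hmem : (ζ : Qb) ∈ A := mem_valuationSubring_of_pow_eq_one A hℓ0 hζpow
  have hmem' : ((ζ⁻¹ : Qbˣ) : Qb) ∈ A := mem_valuationSubring_of_pow_eq_one A hℓ0 hζinv
  let ζA : (↥A)ˣ := ⟨⟨ζ, hmem⟩, ⟨((ζ⁻¹ : Qbˣ) : Qb), hmem'⟩,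
    Subtype.ext (by simp), Subtype.ext (by simp)⟩
  have hmap : Units.map (A.subtype : ↥A →* Qb) ζA = ζ := Units.ext rfl
  have hinj : Function.Injective (Units.map (A.subtype : ↥A →* Qb)) :=
    Units.map_injective Subtype.val_injective
  have hζA : IsPrimitiveRoot ζA ℓ :=
    IsPrimitiveRoot.of_map_of_injective (f := Units.map (A.subtype : ↥A →* Qb))
      (by rw [hmap]; exact hζ) hinj
  refine ⟨ζA, hζA, fun y hy => ?_⟩
  obtain ⟨W, hW⟩ := exists_qExpand_eq_of_scaleL_eq ℓ ζA hζA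
    (∏ b ∈ Finset.range ℓ, scaleL (ζA ^ b) y) (scaleL_prod_scaleL ℓ ζA hζA.pow_eq_one y)
  refine ⟨qExpand ↥A ℓ y * W, ?_, ?_⟩
  · apply qExpand_injective (R := Qb) ℓ
    rw [hform ⟨emb A y, hy⟩, map_mul, map_mul, ← coeffMap_qExpand, ← coeffMap_qExpand,
      ← coeffMap_qExpand, qExpand_qExpand, hW, map_prod]
    congr 1
    refine Finset.prod_congr rfl fun b _ => ?_
    rw [coeffMap_scaleL, map_pow]
    show scaleL (Units.map (A.subtype : ↥A →* Qb) ζA ^ b) _ = _
    rw [hmap]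
  · rw [map_mul, qExpand_qExpand, hW]

/-- A primitive `ℓ`-th root of unity of a local domain stays primitive in the residue field
as soon as `ℓ` is invertible there. -/
theorem isPrimitiveRoot_residue_units {R : Type*} [CommRing R] [IsDomain R] [IsLocalRing R]
    (ℓ : ℕ) (hℓ : 0 < ℓ) (hne : ((ℓ : ℕ) : IsLocalRing.ResidueField R) ≠ 0)
    (ζ : Rˣ) (hζ : IsPrimitiveRoot ζ ℓ) :
    IsPrimitiveRoot (Units.map (IsLocalRing.residue R : R →* IsLocalRing.ResidueField R) ζ) ℓ := by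
  have : NeZero ((ℓ : ℕ) : IsLocalRing.ResidueField R) := ⟨hne⟩
  have h1 : IsPrimitiveRoot ((ζ : Rˣ) : R) ℓ := IsPrimitiveRoot.coe_units_iff.mpr hζ
  have h2 : (Polynomial.cyclotomic ℓ R).IsRoot (ζ : R) := h1.isRoot_cyclotomic hℓ
  have h3 : (Polynomial.cyclotomic ℓ (IsLocalRing.ResidueField R)).IsRoot
      (IsLocalRing.residue R (ζ : R)) := by
    rw [← Polynomial.map_cyclotomic ℓ (IsLocalRing.residue R)]
    exact h2.map
  have h4 : IsPrimitiveRoot (IsLocalRing.residue R (ζ : R)) ℓ :=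
    (Polynomial.isRoot_cyclotomic_iff).mp h3
  exact IsPrimitiveRoot.coe_units_iff.mp h4

/-- Reduction of the integral product formula. -/
theorem npf_red_formula (A : ValuationSubring Qb) (ℓ : ℕ) [NeZero ℓ] (ζA : (↥A)ˣ)
    (y z : LaurentSeries A)
    (hz : qExpand ↥A ℓ z =
      qExpand ↥A (ℓ * ℓ) y * ∏ b ∈ Finset.range ℓ, scaleL (ζA ^ b) y) :
    qExpand (IsLocalRing.ResidueField A) ℓ (red A z) =
      qExpand (IsLocalRing.ResidueField A) (ℓ * ℓ) (red A y) *
        ∏ b ∈ Finset.range ℓ,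
          scaleL ((Units.map (IsLocalRing.residue A : ↥A →* IsLocalRing.ResidueField A) ζA) ^ b)
            (red A y) := by
  have h := congrArg (red A) hz
  rw [coeffMap_qExpand, map_mul, coeffMap_qExpand, map_prod] at h
  rw [h]
  congr 1
  refine Finset.prod_congr rfl fun b _ => ?_
  rw [coeffMap_scaleL, map_pow]

/-- The product formula forces primitivity of the numerator of `T_ℓ`. -/
theorem npf_red_ne_zero {k : Type*} [Field k] (ℓ : ℕ) [NeZero ℓ] (ζ : kˣ)
    (w W : LaurentSeries k) (hw : w ≠ 0)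
    (h : qExpand k ℓ W = qExpand k (ℓ * ℓ) w * ∏ b ∈ Finset.range ℓ, scaleL (ζ ^ b) w) :
    W ≠ 0 := by
  intro h0
  rw [h0, map_zero] at h
  rcases mul_eq_zero.mp h.symm with h1 | h1
  · exact hw (qExpand_injective (R := k) (ℓ * ℓ) (h1.trans (map_zero _).symm))
  · rw [Finset.prod_eq_zero_iff] at h1
    obtain ⟨b, _, hb⟩ := h1
    exact hw ((map_eq_zero (scaleL (ζ ^ b))).mp hb)

/-- **Seat R-6k**: reduction commutes with the Hecke norm on functions, at every level. -/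
theorem npfRed (p : ℕ) (hp : p.Prime) : NpfRed p := by
  intro N ℓ _ _ hℓ hℓN hℓp A hA f hf hres
  obtain ⟨ζA, hζA, hint⟩ := npf_integral N ℓ hℓ hℓN A
  obtain ⟨Y₁, Y₂, hpres⟩ := hf
  obtain ⟨z₁, hz₁, hq₁⟩ := hint Y₁ hpres.mem₁
  obtain ⟨z₂, hz₂, hq₂⟩ := hint Y₂ hpres.mem₂
  have hchar : CharP (IsLocalRing.ResidueField A) p :=
    charP_residueField_of_liesOverPrime A p hp hA
  have hne : ((ℓ : ℕ) : IsLocalRing.ResidueField A) ≠ 0 := by
    intro h0
    have hdvd : p ∣ ℓ := (CharP.cast_eq_zero_iff (IsLocalRing.ResidueField A) p ℓ).mp h0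
    exact hℓp ((Nat.prime_dvd_prime_iff_eq hp hℓ).mp hdvd).symm
  have hζk := isPrimitiveRoot_residue_units ℓ hℓ.pos hne ζA hζA
  have hr₁ := npf_red_formula A ℓ ζA Y₁ z₁ hq₁
  have hr₂ := npf_red_formula A ℓ ζA Y₂ z₂ hq₂
  have hprim : red A z₂ ≠ 0 := npf_red_ne_zero ℓ _ _ _ hpres.prim hr₂
  have hmul : heckeFun Qb N ℓ f * heckeFun Qb N ℓ ⟨emb A Y₂, hpres.mem₂⟩ =
      heckeFun Qb N ℓ ⟨emb A Y₁, hpres.mem₁⟩ := by
    rw [← map_mul]
    congr 1
    exact Subtype.ext hpres.eq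
  have hpres' : IsPres A (modularFunctionFieldBar N)
      ((heckeFun Qb N ℓ f : ↥(modularFunctionFieldBar N)) : LaurentSeries Qb) z₁ z₂ := by
    refine ⟨?_, ?_, hprim, ?_⟩
    · rw [hz₁]; exact SetLike.coe_mem _
    · rw [hz₂]; exact SetLike.coe_mem _
    · rw [hz₁, hz₂, ← hmul]; rfl
  refine ⟨hpres'.mem_gaussSub, _, hζk, ?_⟩
  rw [gaussResFun_eq hpres, gaussResFun_eq hpres', map_div₀, map_div₀, hr₁, hr₂]
  simp_rw [map_div₀]
  rw [Finset.prod_div_distrib, mul_div_mul_comm]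

end Fermat.Agent.R38Ret
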