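/-
Row 38 (S44), block R (RET), seat R-6b1.  Owner: helper17.

Surjectivity of the reduction at a place `A` of `ℚ̄` over a prime `ℓ ∤ N` (good reduction):

* `placeReductionModL_surjective` : every place of the function field of `X₀(N)` mod `ℓ` is the
  reduction of a place of `ℚ̄(X₀(N))`;
* `exists_degZero_lift` : every divisor of degree `0` on the special fibre is the reduction of a
  divisor of degree `0`;
* `reductionModL_surjective` : `reductionModL A N : J₀(N)(ℚ̄) → Pic⁰(X₀(N) mod ℓ)` is onto.

Proof: a uniformiser `h̄` at `Q` is the reduction of a Gauss unit `u` (`ES15.heckeRed_exists_lift`);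
the push property (`ES15.heckeRed_isPush_of_isPlaceReduction`) gives
`(r_* div u)(Q) = ord_Q h̄ = 1 ≠ 0`, so `Q` is in the range of `r`.
-/
import Mathlib
import Fermat.Agent.E.S15.HeckeRed

set_option autoImplicit false
set_option linter.style.haveILetI false
set_option linter.unusedSectionVars false
set_option synthInstance.maxHeartbeats 400000

noncomputable section

open AlgebraicCurve ModularCurve HahnSeries Fermat.Agent.RR Fermat.Agent.Deuring Fermat.Agent.FF
  Fermat.Agent.RedTr Fermat.Agent.GaussInt

namespace Fermat.Agent.R38Ret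

local notation "Qb" => AlgebraicClosure ℚ

section Abstract

variable {K E k Ek : Type*} [Field K] [Field E] [Algebra K E]
  [Field k] [Field Ek] [Algebra k Ek]

/-- a map of places with the push property is onto. -/
theorem redSurj_of_isPush (S : ValSetup K E k Ek) {r : Place K E → Place k Ek}
    (hr : IsPush S r) : Function.Surjective r := by
  classical
  intro Q
  obtain ⟨π, hπ⟩ := IsDiscreteValuationRing.exists_irreducible Q.toValuationSubring
  have hπ0 : ((π : Q.toValuationSubring) : Ek) ≠ 0 := by
    intro h
    exact hπ.ne_zero (Subtype.ext h)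
  obtain ⟨u, hu, hui, hu0, hured⟩ := Fermat.Agent.ES15.heckeRed_exists_lift S hπ0
  have h1 : Finsupp.mapDomain r (divOf S.hF u) Q = 1 := by
    rw [hr u hu hui hu0 Q, hured]
    exact Q.ord_coe_irreducible hπ
  by_contra hQ
  have h0 : Finsupp.mapDomain r (divOf S.hF u) Q = 0 :=
    Finsupp.mapDomain_of_notMem_range _ _ (fun ⟨P, hP⟩ => hQ ⟨P, hP⟩)
  rw [h0] at h1
  exact zero_ne_one h1

/-- lifting divisors along a surjective degree-preserving map of places. -/
theorem exists_divisor_lift {r : Place K E → Place k Ek} (hr : Function.Surjective r)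
    (Y : Divisor k Ek) : ∃ X : Divisor K E, Finsupp.mapDomain r X = Y := by
  classical
  refine ⟨Finsupp.mapDomain (Function.surjInv hr) Y, ?_⟩
  rw [← Finsupp.mapDomain_comp]
  have : r ∘ Function.surjInv hr = id := funext fun Q => Function.surjInv_eq hr Q
  rw [this, Finsupp.mapDomain_id]

end Abstract

/-- **(R-6b1)** every place of the special fibre is the reduction of a place. -/
theorem placeReductionModL_surjective (A : ValuationSubring Qb) (ℓ N : ℕ) [NeZero N]
    (hℓ : ℓ.Prime) (hA : A.LiesOverPrime ℓ) (hℓN : ¬ ℓ ∣ N) (hin : ReductionInputsModL A N) :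
    Function.Surjective (placeReductionModL hin) :=
  redSurj_of_isPush (modularValSetup A ℓ N hℓ hA hℓN)
    (Fermat.Agent.ES15.heckeRed_isPush_of_isPlaceReduction A ℓ N hℓ hA hℓN
      (isPlaceReductionModL_placeReductionModL hin))

/-- **(R-6b1)** every divisor of degree `0` of the special fibre is the reduction of a divisor of
degree `0`. -/
theorem exists_degZero_lift (A : ValuationSubring Qb) (ℓ N : ℕ) [NeZero N]
    (hℓ : ℓ.Prime) (hA : A.LiesOverPrime ℓ) (hℓN : ¬ ℓ ∣ N) (hin : ReductionInputsModL A N)
    (Ybar : Divisor.degZero (K := IsLocalRing.ResidueField A)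
      (F := modularFunctionFieldFullC (IsLocalRing.ResidueField A) N)) :
    ∃ X : Divisor.degZero (K := Qb) (F := modularFunctionFieldBar N),
      reductionDegZeroAlong (placeReductionModL hin)
        (isPlaceReductionModL_placeReductionModL hin).1 X = Ybar := by
  obtain ⟨X, hX⟩ := exists_divisor_lift
    (placeReductionModL_surjective A ℓ N hℓ hA hℓN hin)
    (Ybar : Divisor (IsLocalRing.ResidueField A)
      (modularFunctionFieldFullC (IsLocalRing.ResidueField A) N))
  have hdeg := (isPlaceReductionModL_placeReductionModL hin).1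
  have hX0 : X ∈ Divisor.degZero (K := Qb) (F := modularFunctionFieldBar N) := by
    rw [Divisor.mem_degZero, ← degree_mapDomain_of_deg_eq hdeg, hX]
    exact Divisor.mem_degZero.mp Ybar.2
  refine ⟨⟨X, hX0⟩, Subtype.ext ?_⟩
  rw [coe_reductionDegZeroAlong]
  exact hX

/-- the reduction map `J₀(N)(ℚ̄) → Pic⁰` of the special fibre is onto (good reduction). -/
theorem reductionModL_surjective (A : ValuationSubring Qb) (ℓ N : ℕ) [NeZero N]
    (hℓ : ℓ.Prime) (hA : A.LiesOverPrime ℓ) (hℓN : ¬ ℓ ∣ N) (hin : ReductionInputsModL A N) :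
    Function.Surjective (reductionModL A N) := by
  intro y
  obtain ⟨Ybar, rfl⟩ := Pic0.mk_surjective y
  obtain ⟨X, hX⟩ := exists_degZero_lift A ℓ N hℓ hA hℓN hin Ybar
  exact ⟨Pic0.mk X, by rw [reductionModL_mk hin, hX]⟩

end Fermat.Agent.R38Ret
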