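import Mathlib
import Fermat.Agent.R38.Ret.BridgeDefs

/-!
# Row 38, block R, seat R-6b3: algebra of the formal Hecke norm  (helper98)

`IsFormalNorm ℓ w W` : `W(q^ℓ) = w(q^{ℓ²}) ∏_{b<ℓ} w(ζ^b q)` for SOME primitive `ℓ`-th root of
unity `ζ` of `k`.  The product does not depend on `ζ` (`fnorm_prod_scaleL_pow_eq`), hence:

* `IsFormalNorm.unique` : `W` is determined by `w`;
* `IsFormalNorm.eq_of_isPrimitiveRoot` : the formula holds for EVERY primitive root;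
* `IsFormalNorm.one/mul/inv/div/pow/zpow/prod` : multiplicativity;
* `IsFormalNorm.const` : the formal norm of a constant `c` is `c ^ (ℓ + 1)`;
* `IsFormalNorm.ne_zero`, `IsFormalNorm.eq_zero_iff`.
-/

set_option autoImplicit false

noncomputable section

namespace Fermat.Agent.R38Ret

open ModularCurve HahnSeries Fermat.Agent.Kronecker

variable {k : Type*} [Field k] {ℓ : ℕ} [NeZero ℓ]

/-- `∏_{b<ℓ} f (ζ^b)` does not depend on the primitive `ℓ`-th root of unity `ζ` of a field. -/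
theorem fnorm_prod_pow_eq {M : Type*} [CommMonoid M] {ζ ζ' : kˣ}
    (hζ : IsPrimitiveRoot ζ ℓ) (hζ' : IsPrimitiveRoot ζ' ℓ) (f : kˣ → M) :
    ∏ b ∈ Finset.range ℓ, f (ζ ^ b) = ∏ b ∈ Finset.range ℓ, f (ζ' ^ b) := by
  classical
  have hinj : ∀ {ξ : kˣ}, IsPrimitiveRoot ξ ℓ →
      Set.InjOn (fun b : ℕ => ξ ^ b) (Finset.range ℓ : Set ℕ) := by
    intro ξ hξ i hi j hj hij
    exact hξ.pow_inj (Finset.mem_range.mp hi) (Finset.mem_range.mp hj) hij
  have himg : (Finset.range ℓ).image (fun b : ℕ => ζ' ^ b) =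
      (Finset.range ℓ).image (fun b : ℕ => ζ ^ b) := by
    apply Finset.eq_of_subset_of_card_le
    · intro x hx
      obtain ⟨b, -, rfl⟩ := Finset.mem_image.mp hx
      have hmem : ζ' ^ b ∈ rootsOfUnity ℓ k := by
        rw [mem_rootsOfUnity, ← pow_mul, mul_comm, pow_mul, hζ'.pow_eq_one, one_pow]
      obtain ⟨i, hi, hi'⟩ := hζ.eq_pow_of_mem_rootsOfUnity hmem
      exact Finset.mem_image.mpr ⟨i, Finset.mem_range.mpr hi, hi'⟩
    · rw [Finset.card_image_of_injOn (hinj hζ), Finset.card_image_of_injOn (hinj hζ')]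
  rw [← Finset.prod_image (f := f) (hinj hζ), ← Finset.prod_image (f := f) (hinj hζ'), himg]

/-- The product of the conjugates `w(ζ^b q)` does not depend on the primitive root `ζ`. -/
theorem fnorm_prod_scaleL_pow_eq {ζ ζ' : kˣ} (hζ : IsPrimitiveRoot ζ ℓ) (hζ' : IsPrimitiveRoot ζ' ℓ)
    (w : LaurentSeries k) :
    ∏ b ∈ Finset.range ℓ, scaleL (ζ ^ b) w = ∏ b ∈ Finset.range ℓ, scaleL (ζ' ^ b) w :=
  fnorm_prod_pow_eq hζ hζ' (fun z => scaleL z w)

theorem fnorm_scaleL_C (z : kˣ) (c : k) : scaleL z (HahnSeries.C c : LaurentSeries k) = HahnSeries.C c := by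
  ext n
  rw [scaleL_coeff, HahnSeries.C_apply, HahnSeries.coeff_single]
  split_ifs with h
  · subst h; simp
  · simp

/-- The formula of `IsFormalNorm` holds for EVERY primitive `ℓ`-th root of unity. -/
theorem IsFormalNorm.eq_of_isPrimitiveRoot {w W : LaurentSeries k} (h : IsFormalNorm ℓ w W)
    {ζ : kˣ} (hζ : IsPrimitiveRoot ζ ℓ) :
    qExpand k ℓ W = qExpand k (ℓ * ℓ) w * ∏ b ∈ Finset.range ℓ, scaleL (ζ ^ b) w := by
  obtain ⟨ζ', hζ', h'⟩ := h
  rw [h', fnorm_prod_scaleL_pow_eq hζ' hζ]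

theorem isFormalNorm_of_isPrimitiveRoot {w W : LaurentSeries k} {ζ : kˣ}
    (hζ : IsPrimitiveRoot ζ ℓ)
    (h : qExpand k ℓ W = qExpand k (ℓ * ℓ) w * ∏ b ∈ Finset.range ℓ, scaleL (ζ ^ b) w) :
    IsFormalNorm ℓ w W := ⟨ζ, hζ, h⟩

/-- A primitive `ℓ`-th root of unity exists as soon as some formal norm exists. -/
theorem IsFormalNorm.exists_isPrimitiveRoot {w W : LaurentSeries k} (h : IsFormalNorm ℓ w W) :
    ∃ ζ : kˣ, IsPrimitiveRoot ζ ℓ := by
  obtain ⟨ζ, hζ, -⟩ := h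
  exact ⟨ζ, hζ⟩

/-- **Uniqueness of the formal norm** (no hypothesis on `ℓ`). -/
theorem IsFormalNorm.unique' {w W W' : LaurentSeries k}
    (h : IsFormalNorm ℓ w W) (h' : IsFormalNorm ℓ w W') : W = W' := by
  obtain ⟨ζ, hζ, hW⟩ := h
  have hW' := h'.eq_of_isPrimitiveRoot hζ
  exact qExpand_injective (R := k) ℓ (hW.trans hW'.symm)

/-- **Uniqueness of the formal norm**. -/
theorem IsFormalNorm.unique (_hℓ : ℓ.Prime) {w W W' : LaurentSeries k}
    (h : IsFormalNorm ℓ w W) (h' : IsFormalNorm ℓ w W') : W = W' :=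
  h.unique' h'

theorem IsFormalNorm.congr {w w' W W' : LaurentSeries k} (h : IsFormalNorm ℓ w W)
    (hw : w = w') (hW : W = W') : IsFormalNorm ℓ w' W' := by
  subst hw; subst hW; exact h

theorem isFormalNorm_one {ζ : kˣ} (hζ : IsPrimitiveRoot ζ ℓ) :
    IsFormalNorm ℓ (1 : LaurentSeries k) 1 := by
  refine ⟨ζ, hζ, ?_⟩
  simp only [map_one, Finset.prod_const_one, mul_one]

theorem isFormalNorm_zero {ζ : kˣ} (hζ : IsPrimitiveRoot ζ ℓ) :
    IsFormalNorm ℓ (0 : LaurentSeries k) 0 := by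
  refine ⟨ζ, hζ, ?_⟩
  simp only [map_zero, zero_mul]

theorem IsFormalNorm.mul {w₁ w₂ W₁ W₂ : LaurentSeries k}
    (h₁ : IsFormalNorm ℓ w₁ W₁) (h₂ : IsFormalNorm ℓ w₂ W₂) :
    IsFormalNorm ℓ (w₁ * w₂) (W₁ * W₂) := by
  obtain ⟨ζ, hζ, hW₁⟩ := h₁
  have hW₂ := h₂.eq_of_isPrimitiveRoot hζ
  refine ⟨ζ, hζ, ?_⟩
  simp only [map_mul, Finset.prod_mul_distrib, hW₁, hW₂]
  ring

theorem IsFormalNorm.inv {w W : LaurentSeries k} (h : IsFormalNorm ℓ w W) :
    IsFormalNorm ℓ w⁻¹ W⁻¹ := by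
  obtain ⟨ζ, hζ, hW⟩ := h
  refine ⟨ζ, hζ, ?_⟩
  simp only [map_inv₀, Finset.prod_inv_distrib, hW, mul_inv]

theorem IsFormalNorm.div {w₁ w₂ W₁ W₂ : LaurentSeries k}
    (h₁ : IsFormalNorm ℓ w₁ W₁) (h₂ : IsFormalNorm ℓ w₂ W₂) :
    IsFormalNorm ℓ (w₁ / w₂) (W₁ / W₂) := by
  rw [div_eq_mul_inv, div_eq_mul_inv]
  exact h₁.mul h₂.inv

theorem IsFormalNorm.pow {w W : LaurentSeries k} (h : IsFormalNorm ℓ w W) (n : ℕ) :
    IsFormalNorm ℓ (w ^ n) (W ^ n) := by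
  obtain ⟨ζ, hζ, hW⟩ := h
  refine ⟨ζ, hζ, ?_⟩
  simp only [map_pow, Finset.prod_pow, hW, mul_pow]

theorem IsFormalNorm.zpow {w W : LaurentSeries k} (h : IsFormalNorm ℓ w W) (n : ℤ) :
    IsFormalNorm ℓ (w ^ n) (W ^ n) := by
  obtain ⟨ζ, hζ, hW⟩ := h
  refine ⟨ζ, hζ, ?_⟩
  simp only [map_zpow₀, Finset.prod_zpow, hW, mul_zpow]

theorem IsFormalNorm.prod {ι : Type*} (s : Finset ι) {w W : ι → LaurentSeries k}
    {ζ : kˣ} (hζ : IsPrimitiveRoot ζ ℓ)
    (h : ∀ i ∈ s, IsFormalNorm ℓ (w i) (W i)) :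
    IsFormalNorm ℓ (∏ i ∈ s, w i) (∏ i ∈ s, W i) := by
  classical
  induction s using Finset.induction_on with
  | empty => simpa using isFormalNorm_one hζ
  | insert a s ha ih =>
    rw [Finset.prod_insert ha, Finset.prod_insert ha]
    exact (h a (Finset.mem_insert_self a s)).mul
      (ih fun i hi => h i (Finset.mem_insert_of_mem hi))

/-- The formal norm of a constant `c` is `c ^ (ℓ + 1)`. -/
theorem IsFormalNorm.const {ζ : kˣ} (hζ : IsPrimitiveRoot ζ ℓ) (c : k) :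
    IsFormalNorm ℓ (HahnSeries.C c : LaurentSeries k) (HahnSeries.C (c ^ (ℓ + 1))) := by
  refine ⟨ζ, hζ, ?_⟩
  simp only [qExpand_C, fnorm_scaleL_C, Finset.prod_const, Finset.card_range]
  rw [← pow_succ', map_pow]

/-- `algebraMap` form of `IsFormalNorm.const`. -/
theorem IsFormalNorm.const_algebraMap {ζ : kˣ} (hζ : IsPrimitiveRoot ζ ℓ) (c : k) :
    IsFormalNorm ℓ (algebraMap k (LaurentSeries k) c)
      (algebraMap k (LaurentSeries k) (c ^ (ℓ + 1))) := by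
  have h := IsFormalNorm.const hζ c
  have e : ∀ x : k, algebraMap k (LaurentSeries k) x = (HahnSeries.C x : LaurentSeries k) := by
    intro x
    have h1 : algebraMap k (PowerSeries k) x = PowerSeries.C x := by simp
    rw [HahnSeries.algebraMap_apply', h1, HahnSeries.ofPowerSeries_C]
  rwa [← e, ← e] at h

/-- The formal norm of a constant multiple. -/
theorem IsFormalNorm.const_mul {w W : LaurentSeries k} (h : IsFormalNorm ℓ w W) (c : k) :
    IsFormalNorm ℓ (HahnSeries.C c * w) (HahnSeries.C (c ^ (ℓ + 1)) * W) := by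
  obtain ⟨ζ, hζ⟩ := h.exists_isPrimitiveRoot
  exact (IsFormalNorm.const hζ c).mul h

theorem IsFormalNorm.eq_zero_iff {w W : LaurentSeries k} (h : IsFormalNorm ℓ w W) :
    W = 0 ↔ w = 0 := by
  obtain ⟨ζ, hζ, hW⟩ := h
  constructor
  · intro hW0
    by_contra hw
    rw [hW0, map_zero] at hW
    have h1 : qExpand k (ℓ * ℓ) w ≠ 0 := fun h0 =>
      hw (qExpand_injective (R := k) (ℓ * ℓ) (h0.trans (map_zero _).symm))
    have h2 : ∏ b ∈ Finset.range ℓ, scaleL (ζ ^ b) w ≠ 0 := by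
      rw [Finset.prod_ne_zero_iff]
      intro b _ h0
      exact hw ((map_eq_zero (scaleL (ζ ^ b))).mp h0)
    exact mul_ne_zero h1 h2 hW.symm
  · intro hw
    subst hw
    rw [map_zero, zero_mul] at hW
    exact qExpand_injective (R := k) ℓ (hW.trans (map_zero _).symm)

theorem IsFormalNorm.ne_zero {w W : LaurentSeries k} (h : IsFormalNorm ℓ w W) (hw : w ≠ 0) :
    W ≠ 0 := fun hW => hw (h.eq_zero_iff.mp hW)

end Fermat.Agent.R38Ret
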