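import Mathlib
import Fermat.Agent.R38.Ret.BridgeM
import Fermat.Agent.R38.Ret.FormalNorm
import Fermat.Agent.R38.Spine

/-!
# Row 38 (target S44), block R, seat R-6b (helper76): the junction `SpJR6b`

`spJR6b : Fermat.Agent.R38.SpJR6b`, i.e. `BridgeStatement D S` for every `D`, `S`:
`bridge_of` (file `BridgeM.lean`) with `hK := npfRed` (seat R-6k, helper84) and
`hU := IsFormalNorm.unique` (seat R-6b3, helper98); the lift of divisors (seat R-6b1,
helper17) is used inside `bridge_of`.
-/

set_option autoImplicit false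
set_option synthInstance.maxHeartbeats 400000

noncomputable section

namespace Fermat.Agent.R38Ret

open ModularCurve AlgebraicCurve HahnSeries Fermat.Agent.AtkinLehner

/-- (R-6b3) the formal norm is unique, over every field. -/
theorem formalNormUnique (k : Type*) [Field k] : FormalNormUnique k :=
  fun _ _ hℓ _ _ _ h h' => IsFormalNorm.unique hℓ h h'

/-- **(BRIDGE), level-`M` side**: the deliverable of seat R-6b. -/
theorem bridgeStatement (D : ALData) [NeZero D.Q] [NeZero D.R] [NeZero (D.Q * D.R)]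
    (hQ : D.Q.Prime) (hQR : ¬ D.Q ∣ D.R) (S : Finset ℕ) (hpS : D.Q ∈ S)
    (hNS : ∀ q : ℕ, q.Prime → q ∣ D.Q * D.R → q ∈ S) : BridgeStatement D S :=
  fun A hA a hB =>
    bridge_of D hQ hQR A hA (npfRed D.Q hQ) (formalNormUnique _) S hpS hNS a hB

/-- **J-R6b**. -/
theorem spJR6b : Fermat.Agent.R38.SpJR6b :=
  fun D _ _ _ hQ _ hQR S hpS hNS => bridgeStatement D hQ hQR S hpS hNS

end Fermat.Agent.R38Ret
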