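/-
Row 38 (target S44), block R, seat R-6a (helper42): the Hecke operators `T_ℓ` (`ℓ ∤ N`) commute
with the Atkin–Lehner involution `w_Q` ON FUNCTIONS of level `N = Q R`.

* `bn_coe_wAt_heckeBetaBar` : `w_Q` at the levels `N` and `N ℓ` is compatible with `β_ℓ`
  (`x(q) ↦ x(q^ℓ)`); the `α`-analogue is `BadRed.coe_wAt_heckeAlphaBar`;
* `bn_normAlong_equiv_equiv` : the norm along `ψ` commutes with a pair of automorphisms
  compatible with `ψ`;
* `bn_heckeFun_atkinLehner` : `T_ℓ (w_Q x) = w_Q (T_ℓ x)`.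
-/
import Mathlib
import Fermat.Agent.Lib.BadRed.Bridge.AuxNew

set_option autoImplicit false
set_option linter.unusedSectionVars false
set_option linter.style.haveILetI false

noncomputable section

namespace Fermat.Agent.R38Ret

open ModularCurve AlgebraicCurve Fermat.Agent.F3 Fermat.Agent.F3G Fermat.Agent.GaussInt
  Fermat.Agent.AtkinLehner Fermat.Agent.Kronecker Fermat.Agent.BadRed

local notation "Qb" => AlgebraicClosure ℚ

section Generic

variable {K F F' : Type*} [Field K] [Field F] [Field F'] [Algebra K F] [Algebra K F']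

/-- the norm along `ψ` commutes with a pair of automorphisms compatible with `ψ`. -/
theorem bn_normAlong_equiv_equiv (ψ : F →ₐ[K] F') (τ : F ≃ₐ[K] F) (σ : F' ≃ₐ[K] F')
    (h : ∀ x, σ (ψ x) = ψ (τ x)) (y : F') :
    normAlong ψ (σ y) = τ (normAlong ψ y) := by
  letI a1 : Algebra F F' := algebraAlong ψ
  have he : RingHom.comp (algebraMap F F') (τ.toRingEquiv : F →+* F) =
      RingHom.comp (σ.toRingEquiv : F' →+* F') (algebraMap F F') := by
    ext x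
    exact (h x).symm
  have h1 := Algebra.norm_eq_of_equiv_equiv τ.toRingEquiv σ.toRingEquiv he y
  show Algebra.norm F (σ y) = τ (Algebra.norm F y)
  rw [h1]
  exact (τ.toRingEquiv.apply_symm_apply _).symm

end Generic

section Compat

set_option synthInstance.maxHeartbeats 400000
set_option maxHeartbeats 1000000

/-- **compatibility of the Atkin–Lehner involutions `w_Q` at the levels `M = Q R` and
`M ℓ = Q (R ℓ)` with `β_ℓ`** (on expansions). -/
theorem bn_coe_wAt_heckeBetaBar (D D' : ALData) {M ℓ : ℕ} [NeZero M] [NeZero ℓ]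
    (hM : M = D.Q * D.R) (hM' : M * ℓ = D'.Q * D'.R) (hQ : D'.Q = D.Q) (hR : D'.R = D.R * ℓ)
    (x : FBar M) :
    ((wAt D' hM' (heckeBetaBar Qb M ℓ x) : FBar (M * ℓ)) : LaurentSeries Qb) =
      qExpand Qb ℓ ((wAt D hM x : FBar M) : LaurentSeries Qb) := by
  set Φ₁ : FBar M →+* LaurentSeries Qb :=
    ((modularFunctionFieldBar (M * ℓ)).val.toRingHom.comp
      ((wAt D' hM').toAlgHom.toRingHom.comp (heckeBetaBar Qb M ℓ).toRingHom)) with hΦ₁
  set Φ₂ : FBar M →+* LaurentSeries Qb :=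
    ((modularFunctionFieldBar (M * ℓ)).val.toRingHom.comp
      ((heckeBetaBar Qb M ℓ).toRingHom.comp (wAt D hM).toAlgHom.toRingHom)) with hΦ₂
  have key : Φ₁ = Φ₂ := by
    refine ringHom_ext_FBar M Φ₁ Φ₂ (fun c => ?_) (fun d hdne hd => ?_)
    · show ((wAt D' hM' (heckeBetaBar Qb M ℓ (algebraMap Qb (FBar M) c)) : FBar (M * ℓ)) :
          LaurentSeries Qb) =
        ((heckeBetaBar Qb M ℓ (wAt D hM (algebraMap Qb (FBar M) c)) : FBar (M * ℓ)) :
          LaurentSeries Qb)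
      rw [AlgHom.commutes, AlgEquiv.commutes, AlgEquiv.commutes, AlgHom.commutes]
    · show ((wAt D' hM' (heckeBetaBar Qb M ℓ (jdBar M d hd)) : FBar (M * ℓ)) :
          LaurentSeries Qb) =
        ((heckeBetaBar Qb M ℓ (wAt D hM (jdBar M d hd)) : FBar (M * ℓ)) : LaurentSeries Qb)
      have hd0 : d ∣ D.Q * D.R := hM ▸ hd
      obtain ⟨d₁, e₁, d₂, f₂, h1, h2, rfl⟩ := exists_factor D hd0
      obtain ⟨p1, p2, p3, p4⟩ := factor_pos D h1 h2
      have hℓ0 : 0 < ℓ := Nat.pos_of_ne_zero (NeZero.ne ℓ)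
      haveI : NeZero (e₁ * d₂) := ⟨(Nat.mul_pos p2 p3).ne'⟩
      haveI : NeZero (d₁ * (d₂ * ℓ)) := ⟨(Nat.mul_pos p1 (Nat.mul_pos p3 hℓ0)).ne'⟩
      haveI : NeZero (e₁ * (d₂ * ℓ)) := ⟨(Nat.mul_pos p2 (Nat.mul_pos p3 hℓ0)).ne'⟩
      have h2' : (d₂ * ℓ) * f₂ = D'.R := by
        rw [hR, ← h2]
        ring
      have h1' : d₁ * e₁ = D'.Q := by rw [hQ, h1]
      have hy : ((heckeBetaBar Qb M ℓ (jdBar M (d₁ * d₂) hd) : FBar (M * ℓ)) :
          LaurentSeries Qb) = qExpand Qb (d₁ * (d₂ * ℓ)) (jqModC Qb) := by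
        rw [coe_heckeBetaBar, coe_jdBar, qExpand_qExpand]
        exact qExpand_congr (by ring) _
      rw [coe_wAt_of_coe_eq D' hM' _ d₁ e₁ (d₂ * ℓ) f₂ h1' h2' hy, coe_heckeBetaBar,
        coe_wAt_of_coe_eq D hM _ d₁ e₁ d₂ f₂ h1 h2 (coe_jdBar M _ hd), qExpand_qExpand]
      exact qExpand_congr (by ring) _
  have := congrArg (fun Φ : FBar M →+* LaurentSeries Qb => Φ x) key
  rw [← coe_heckeBetaBar]
  exact this

/-- `w_Q` at the levels `M` and `M ℓ` is compatible with `α_ℓ`. -/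
theorem bn_wAt_heckeAlphaBar (D D' : ALData) {M ℓ : ℕ} [NeZero M] [NeZero ℓ]
    (hM : M = D.Q * D.R) (hM' : M * ℓ = D'.Q * D'.R) (hQ : D'.Q = D.Q) (hR : D'.R = D.R * ℓ)
    (x : FBar M) :
    wAt D' hM' (heckeAlphaBar Qb M ℓ x) = heckeAlphaBar Qb M ℓ (wAt D hM x) := by
  apply Subtype.ext
  rw [coe_wAt_heckeAlphaBar D D' hM hM' hQ hR, coe_heckeAlphaBar]

/-- `w_Q` at the levels `M` and `M ℓ` is compatible with `β_ℓ`. -/
theorem bn_wAt_heckeBetaBar (D D' : ALData) {M ℓ : ℕ} [NeZero M] [NeZero ℓ]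
    (hM : M = D.Q * D.R) (hM' : M * ℓ = D'.Q * D'.R) (hQ : D'.Q = D.Q) (hR : D'.R = D.R * ℓ)
    (x : FBar M) :
    wAt D' hM' (heckeBetaBar Qb M ℓ x) = heckeBetaBar Qb M ℓ (wAt D hM x) := by
  apply Subtype.ext
  rw [bn_coe_wAt_heckeBetaBar D D' hM hM' hQ hR, coe_heckeBetaBar]

/-- **`T_ℓ` commutes with `w_Q` on functions** (`ℓ ∤ Q R` prime). -/
theorem bn_heckeFun_atkinLehner (D : ALData) [NeZero (D.Q * D.R)] (ℓ : ℕ) [NeZero ℓ]
    (hℓ : ℓ.Prime) (hℓN : ¬ ℓ ∣ D.Q * D.R) (x : FBar (D.Q * D.R)) :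
    heckeFun Qb (D.Q * D.R) ℓ (atkinLehner D x) =
      atkinLehner D (heckeFun Qb (D.Q * D.R) ℓ x) := by
  have hcop : Nat.Coprime D.Q (D.R * ℓ) := by
    have h1 : Nat.Coprime D.Q D.R :=
      Nat.isCoprime_iff_coprime.mp ⟨D.a, -D.b, by have := D.hdet; linear_combination this⟩
    have h2 : Nat.Coprime D.Q ℓ :=
      ((Nat.Prime.coprime_iff_not_dvd hℓ).mpr fun h => hℓN (h.trans (Dvd.intro _ rfl))).symm
    exact Nat.Coprime.mul_right h1 h2
  obtain ⟨D', hQ, hR⟩ := ALData.exists_of_coprime D.hQ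
    (Nat.mul_pos D.hR (Nat.pos_of_ne_zero (NeZero.ne ℓ))) hcop
  have hM' : D.Q * D.R * ℓ = D'.Q * D'.R := by rw [hQ, hR, mul_assoc]
  have hα := bn_wAt_heckeAlphaBar D D' (rfl : D.Q * D.R = D.Q * D.R) hM' hQ hR
  have hβ := bn_wAt_heckeBetaBar D D' (rfl : D.Q * D.R = D.Q * D.R) hM' hQ hR
  rw [heckeFun_apply, heckeFun_apply]
  show normAlong (heckeAlphaBar Qb (D.Q * D.R) ℓ) (heckeBetaBar Qb (D.Q * D.R) ℓ (atkinLehner D x))
    = atkinLehner D (normAlong (heckeAlphaBar Qb (D.Q * D.R) ℓ)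
        (heckeBetaBar Qb (D.Q * D.R) ℓ x))
  rw [← wAt_rfl D x, ← hβ x, bn_normAlong_equiv_equiv (heckeAlphaBar Qb (D.Q * D.R) ℓ)
    (wAt D (rfl : D.Q * D.R = D.Q * D.R)) (wAt D' hM') hα, wAt_rfl]

end Compat

end Fermat.Agent.R38Ret
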