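/-
Row 38 (target S44), block R, seat R-6a (helper42): the CORE of the level-`N` side of the bridge.

`exists_heckeFun_eq` : if `(E, g)` is a Kummer generator of exponent `p` of a class `y = [E]` of
level `N` with `T_ℓ y = a • y`, then `T_ℓ g = c · g^a · φ^p` for a constant `c ≠ 0` and a
function `φ ≠ 0` (`T_ℓ g = Norm (g(q^ℓ))`, `F3G.heckeFun`).
`exists_heckeFun_div_const_eq` : the same for `g / c₀`, `c₀` a nonzero constant.
-/
import Mathlib
import Fermat.Agent.F3.I2.RootClass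
import Fermat.Agent.Lib.HeckeInputs.Qbar
import Fermat.Agent.Lib.BadRed.Bridge.NormRel
import Fermat.Agent.Lib.GaussInt.FrobPowAsm

set_option autoImplicit false
set_option linter.unusedSectionVars false

noncomputable section

namespace Fermat.Agent.R38Ret

open ModularCurve AlgebraicCurve Fermat.Agent.F3 Fermat.Agent.F3G Fermat.Agent.F3I2

local notation "Qb" => AlgebraicClosure ℚ

section Core

variable {N : ℕ} [NeZero N]

/-- the order of a `zpow`. -/
theorem bn_ord_zpow (v : Place Qb (FBar N)) (x : FBar N) (a : ℤ) :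
    v.ord (x ^ a) = a * v.ord x := v.ord_zpow x a

/-- the order of a `pow`. -/
theorem bn_ord_pow (v : Place Qb (FBar N)) (x : FBar N) (n : ℕ) :
    v.ord (x ^ n) = (n : ℤ) * v.ord x := by
  rw [← zpow_natCast, v.ord_zpow]

/-- **CORE of R-6a**: the Hecke relation on Kummer generators. -/
theorem exists_heckeFun_eq (ℓ : ℕ) [NeZero ℓ] (hℓ : ℓ.Prime) (p : ℕ) (a : ℤ) (g : FBar N)
    (E : Divisor.degZero (K := Qb) (F := FBar N)) (hR : IsRootDiv p g E)
    (hT : heckeOperatorBar N ⟨ℓ, hℓ⟩ (Pic0.mk E) = a • Pic0.mk E) :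
    ∃ (c : Qb) (φ : FBar N), c ≠ 0 ∧ φ ≠ 0 ∧
      heckeFun Qb N ℓ g = algebraMap Qb (FBar N) c * g ^ a * φ ^ p := by
  have hin : HeckeInputsAlong Qb N ℓ := Fermat.Agent.HeckeInputs.hi_heckeInputsAlong_Qbar N ℓ
  obtain ⟨E', hE', hR'⟩ := IsRootDiv.hecke hin hR
  have hT' : heckeOperatorAlong Qb N ℓ (Pic0.mk E) = a • Pic0.mk E := hT
  -- `E' - a • E` is principal
  have h0 : Pic0.mk (E' - a • E) = 0 := by
    have h1 : Pic0.mk (E' - a • E) = Pic0.mk E' - a • Pic0.mk E := by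
      show QuotientAddGroup.mk' _ (E' - a • E) = _
      rw [map_sub, map_zsmul]
      rfl
    rw [h1, ← hE', hT', sub_self]
  have h2 : (E' - a • E : Divisor.degZero (K := Qb) (F := FBar N)) ∈
      (Divisor.principal (K := Qb) (F := FBar N)).addSubgroupOf
        (Divisor.degZero (K := Qb) (F := FBar N)) :=
    (QuotientAddGroup.eq_zero_iff _).mp h0
  obtain ⟨φ, hφ, hφv⟩ := h2
  have hg : g ≠ 0 := hR.1
  have hTg : heckeFun Qb N ℓ g ≠ 0 := hR'.1
  have hga : g ^ a ≠ 0 := zpow_ne_zero a hg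
  have hφp : φ ^ p ≠ 0 := pow_ne_zero p hφ
  -- the quotient has no zeros and no poles
  set ψ : FBar N := heckeFun Qb N ℓ g * (g ^ a * φ ^ p)⁻¹ with hψ
  have hψ0 : ψ ≠ 0 := mul_ne_zero hTg (inv_ne_zero (mul_ne_zero hga hφp))
  have hord : ∀ v : Place Qb (FBar N), v.ord ψ = 0 := by
    intro v
    have e1 : v.ord (heckeFun Qb N ℓ g) = (p : ℤ) * (E' : Divisor Qb (FBar N)) v := (hR'.2 v).symm
    have e2 : v.ord g = (p : ℤ) * (E : Divisor Qb (FBar N)) v := (hR.2 v).symm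
    have e3 : ((E' - a • E : Divisor.degZero (K := Qb) (F := FBar N)) : Divisor Qb (FBar N)) v
        = v.ord φ := hφv v
    have e4 : ((E' - a • E : Divisor.degZero (K := Qb) (F := FBar N)) : Divisor Qb (FBar N)) v
        = (E' : Divisor Qb (FBar N)) v - a * (E : Divisor Qb (FBar N)) v := by
      rw [AddSubgroup.coe_sub, AddSubgroup.coe_zsmul, Finsupp.sub_apply, Finsupp.smul_apply,
        smul_eq_mul]
    rw [hψ, v.ord_mul hTg (inv_ne_zero (mul_ne_zero hga hφp)), v.ord_inv,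
      v.ord_mul hga hφp, bn_ord_zpow, bn_ord_pow, e1, e2, ← e3, e4]
    ring
  obtain ⟨c, hc, hcψ⟩ := Fermat.Agent.BadRed.normRel_const_of_ord_eq_zero N hψ0 hord
  refine ⟨c, φ, hc, hφ, ?_⟩
  rw [← hcψ, hψ, mul_assoc, inv_mul_cancel_right₀ (mul_ne_zero hga hφp)]

/-- the Hecke relation for `g / c₀`. -/
theorem exists_heckeFun_div_const_eq (ℓ : ℕ) [NeZero ℓ] (hℓ : ℓ.Prime) (p : ℕ) (a : ℤ)
    (g : FBar N) (E : Divisor.degZero (K := Qb) (F := FBar N)) (hR : IsRootDiv p g E)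
    (hT : heckeOperatorBar N ⟨ℓ, hℓ⟩ (Pic0.mk E) = a • Pic0.mk E) (c₀ : Qb) (hc₀ : c₀ ≠ 0) :
    ∃ (c : Qb) (φ : FBar N), c ≠ 0 ∧ φ ≠ 0 ∧
      heckeFun Qb N ℓ (g / algebraMap Qb (FBar N) c₀) =
        algebraMap Qb (FBar N) c * (g / algebraMap Qb (FBar N) c₀) ^ a * φ ^ p := by
  have hc₀' : c₀⁻¹ ≠ 0 := inv_ne_zero hc₀
  have hR₀ : IsRootDiv p (algebraMap Qb (FBar N) c₀⁻¹ * g) E := hR.const_mul hc₀'
  have e : g / algebraMap Qb (FBar N) c₀ = algebraMap Qb (FBar N) c₀⁻¹ * g := by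
    rw [map_inv₀, div_eq_mul_inv, mul_comm]
  rw [e]
  exact exists_heckeFun_eq ℓ hℓ p a _ E hR₀ hT

end Core

end Fermat.Agent.R38Ret
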