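/-
Row 38 (target S44), block R, seat R-6a (helper42): **the level-`N` side of the bridge**.

`bridgeInput_of_spine` : the spine hypotheses on a `p`-new eigen-class `y` of level `N = p M`
with a Kummer generator `(E, g)` (`div g = p E`, `[E] = y`), namely (DivZero) and (PsiNe),
give `R38Ret.BridgeInput D S A a` (the INPUT of the bridge R-6b), provided `S` contains the
primes dividing `N`.

* side `∞` (the reduction of `g / c` for `v_∞` is not a `p`-th power): the function is `g / c`;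
* side `0` (the reduction of `w_p g / c` is not a `p`-th power): the function is `w_p g / c`,
  and the Hecke relation is transported by `T_ℓ ∘ w_p = w_p ∘ T_ℓ` (`bn_heckeFun_atkinLehner`).
-/
import Mathlib
import Fermat.Agent.R38.SpineDefs
import Fermat.Agent.R38.Ret.BridgeDefs
import Fermat.Agent.R38.Ret.BridgeNCore
import Fermat.Agent.R38.Ret.BridgeNAL

set_option autoImplicit false
set_option linter.unusedSectionVars false
set_option linter.style.haveILetI false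
set_option synthInstance.maxHeartbeats 400000

noncomputable section

namespace Fermat.Agent.R38Ret

open ModularCurve AlgebraicCurve Fermat.Agent.F3 Fermat.Agent.F3G Fermat.Agent.F3I2
  Fermat.Agent.GaussInt Fermat.Agent.AtkinLehner Fermat.Agent.BadRed Fermat.Agent.EKp
  Fermat.Agent.R38

local notation "Qb" => AlgebraicClosure ℚ

section Wire

variable (D : ALData) [NeZero D.Q] [NeZero D.R] [NeZero (D.Q * D.R)]
  (A : ValuationSubring Qb) (hq : D.Q.Prime) (hA : A.LiesOverPrime D.Q) (hqR : ¬ D.Q ∣ D.R)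
  [Fact D.Q.Prime] [CharP (IsLocalRing.ResidueField A) D.Q]
  [PerfectRing (IsLocalRing.ResidueField A) D.Q]

/-- **the abstract form**: a function `g'` with a normalised reduction `r` for `v_∞` whose divisor
is divisible by `p`, which is not a `p`-th power, and which satisfies the Hecke relations, is a
bridge input. -/
theorem bn_bridgeInput_of_red (S : Finset ℕ) (a : ℕ → ℤ) (g' : FBar (D.Q * D.R))
    (r : modularFunctionFieldFullC (IsLocalRing.ResidueField A) D.R)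
    (hmem : g' ∈ (kpS D A hq hA hqR).Ov) (hred : (kpS D A hq hA hqR).red g' = r) (hr : r ≠ 0)
    (hdiv : ∀ Q : Place (IsLocalRing.ResidueField A)
      (modularFunctionFieldFullC (IsLocalRing.ResidueField A) D.R), (D.Q : ℤ) ∣ Q.ord r)
    (hpow : ∀ h, r ≠ h ^ D.Q)
    (hT : ∀ ℓ : Nat.Primes, (ℓ : ℕ) ∉ S →
      haveI : NeZero (ℓ : ℕ) := ⟨ℓ.2.ne_zero⟩
      ∃ (c : Qb) (φ : FBar (D.Q * D.R)), c ≠ 0 ∧ φ ≠ 0 ∧
        heckeFun Qb (D.Q * D.R) (ℓ : ℕ) g' =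
          algebraMap Qb (FBar (D.Q * D.R)) c * g' ^ (a ℓ) * φ ^ D.Q) :
    BridgeInput D S A a := by
  have hG := isGaussSetup_gaussSetupBad D hq hqR A hA
  refine ⟨g', r, (hG.mem_iff g').mp hmem, ?_, hr, hdiv, ?_, hT⟩
  · rw [← hred]
    exact hG.coe_red g' hmem
  · rintro ⟨s, hs⟩
    exact hpow s hs.symm

/-- the Hecke relations for `g / c₀`, `(E, g)` a Kummer generator of an eigen-class. -/
theorem bn_hecke_div (S : Finset ℕ) (hS : ∀ ℓ : ℕ, ℓ.Prime → ℓ ∣ D.Q * D.R → ℓ ∈ S)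
    (a : ℕ → ℤ) (y : JZero (D.Q * D.R))
    (E : Divisor.degZero (K := Qb) (F := FBar (D.Q * D.R))) (g : FBar (D.Q * D.R))
    (hnew : spIsNewEigen D S a y) (hkum : spIsKumGen D.Q y E g) (c₀ : Qb) (hc₀ : c₀ ≠ 0)
    (ℓ : Nat.Primes) (hℓS : (ℓ : ℕ) ∉ S) :
    haveI : NeZero (ℓ : ℕ) := ⟨ℓ.2.ne_zero⟩
    ∃ (c : Qb) (φ : FBar (D.Q * D.R)), c ≠ 0 ∧ φ ≠ 0 ∧
      heckeFun Qb (D.Q * D.R) (ℓ : ℕ) (g / algebraMap Qb (FBar (D.Q * D.R)) c₀) =
        algebraMap Qb (FBar (D.Q * D.R)) c * (g / algebraMap Qb (FBar (D.Q * D.R)) c₀) ^ (a ℓ) *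
          φ ^ D.Q := by
  haveI : NeZero (ℓ : ℕ) := ⟨ℓ.2.ne_zero⟩
  have hℓN : ¬ (ℓ : ℕ) ∣ D.Q * D.R := fun h => hℓS (hS ℓ ℓ.2 h)
  have hT : heckeOperatorBar (D.Q * D.R) ⟨(ℓ : ℕ), ℓ.2⟩ (Pic0.mk E) = a ℓ • Pic0.mk E := by
    rw [hkum.2]
    exact hnew.2.2.2 ℓ hℓS hℓN
  exact exists_heckeFun_div_const_eq (ℓ : ℕ) ℓ.2 D.Q (a ℓ) g E hkum.1 hT c₀ hc₀

/-- the Hecke relations for `w_p g / c₀`. -/
theorem bn_hecke_al_div (S : Finset ℕ) (hS : ∀ ℓ : ℕ, ℓ.Prime → ℓ ∣ D.Q * D.R → ℓ ∈ S)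
    (a : ℕ → ℤ) (y : JZero (D.Q * D.R))
    (E : Divisor.degZero (K := Qb) (F := FBar (D.Q * D.R))) (g : FBar (D.Q * D.R))
    (hnew : spIsNewEigen D S a y) (hkum : spIsKumGen D.Q y E g) (c₀ : Qb) (hc₀ : c₀ ≠ 0)
    (ℓ : Nat.Primes) (hℓS : (ℓ : ℕ) ∉ S) :
    haveI : NeZero (ℓ : ℕ) := ⟨ℓ.2.ne_zero⟩
    ∃ (c : Qb) (φ : FBar (D.Q * D.R)), c ≠ 0 ∧ φ ≠ 0 ∧
      heckeFun Qb (D.Q * D.R) (ℓ : ℕ) (atkinLehner D g / algebraMap Qb (FBar (D.Q * D.R)) c₀) =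
        algebraMap Qb (FBar (D.Q * D.R)) c *
          (atkinLehner D g / algebraMap Qb (FBar (D.Q * D.R)) c₀) ^ (a ℓ) * φ ^ D.Q := by
  haveI : NeZero (ℓ : ℕ) := ⟨ℓ.2.ne_zero⟩
  have hℓN : ¬ (ℓ : ℕ) ∣ D.Q * D.R := fun h => hℓS (hS ℓ ℓ.2 h)
  obtain ⟨c, φ, hc, hφ, h⟩ := bn_hecke_div D S hS a y E g hnew hkum c₀ hc₀ ℓ hℓS
  refine ⟨c, atkinLehner D φ, hc, (map_ne_zero _).mpr hφ, ?_⟩
  have e : atkinLehner D g / algebraMap Qb (FBar (D.Q * D.R)) c₀ =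
      atkinLehner D (g / algebraMap Qb (FBar (D.Q * D.R)) c₀) := by
    rw [map_div₀, AlgEquiv.commutes]
  rw [e, bn_heckeFun_atkinLehner D (ℓ : ℕ) ℓ.2 hℓN, h, map_mul, map_mul, AlgEquiv.commutes,
    map_zpow₀, map_pow]

/-- **R-6a**: the spine hypotheses give the input of the bridge. -/
theorem bridgeInput_of_spine (S : Finset ℕ) (hS : ∀ ℓ : ℕ, ℓ.Prime → ℓ ∣ D.Q * D.R → ℓ ∈ S)
    (a : ℕ → ℤ) (y : JZero (D.Q * D.R))
    (E : Divisor.degZero (K := Qb) (F := FBar (D.Q * D.R))) (g : FBar (D.Q * D.R))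
    (hnew : spIsNewEigen D S a y) (hkum : spIsKumGen D.Q y E g)
    (hdz : spDivZero D A hq hA hqR g) (hpsi : spPsiNe D A hq hA hqR g) :
    BridgeInput D S A a := by
  rcases hpsi with ⟨r, hr, hpow⟩ | ⟨r, hr, hpow⟩
  · have hd := hdz r (Or.inl hr)
    obtain ⟨c₀, hc₀, hmem, hred, hr0⟩ := hr
    exact bn_bridgeInput_of_red D A hq hA hqR S a _ r hmem hred hr0 hd hpow
      (fun ℓ hℓS => bn_hecke_div D S hS a y E g hnew hkum c₀ hc₀ ℓ hℓS)
  · have hd := hdz r (Or.inr hr)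
    obtain ⟨c₀, hc₀, hmem, hred, hr0⟩ := hr
    exact bn_bridgeInput_of_red D A hq hA hqR S a _ r hmem hred hr0 hd hpow
      (fun ℓ hℓS => bn_hecke_al_div D S hS a y E g hnew hkum c₀ hc₀ ℓ hℓS)

end Wire

end Fermat.Agent.R38Ret
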