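/-
Row 38 (target S44), block R, seat R-6a (helper42): **the junction `SpJR6a`** of the spine
(`R38/Spine.lean`), i.e. the level-`N` side of the bridge, from `bridgeInput_of_spine`.
-/
import Mathlib
import Fermat.Agent.R38.Spine
import Fermat.Agent.R38.Ret.BridgeN

set_option autoImplicit false
set_option linter.unusedSectionVars false
set_option linter.unusedVariables false
set_option linter.style.haveILetI false
set_option synthInstance.maxHeartbeats 400000

noncomputable section

namespace Fermat.Agent.R38Ret

/-- **J-R6a**: the level-`N` side of the bridge. -/
theorem spJR6a_holds : Fermat.Agent.R38.SpJR6a := by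
  intro D _ _ _ A hq hA hqR _ _ _ _ S a _ hS y hnew E g hkum hdz hpsi
  exact bridgeInput_of_spine D A hq hA hqR S hS a y E g hnew hkum hdz hpsi

end Fermat.Agent.R38Ret
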