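/-
Row 38, block R (RET), seat R-CHI.  Owner: helper17.

`goingUp : GoingUp p M S` (exact Prop of `R38/Ret/Defs.lean`): a proper eigen-ideal modulo `p` of
the Hecke algebra of level `M` away from `S` is realised by a normalised eigenform of level `M`.
The proof is in `R38/Ret/ChiCore.lean` (Deligne–Serre lifting, S22 finiteness, S49 library).
-/
import Fermat.Agent.R38.Ret.Defs
import Fermat.Agent.R38.Ret.ChiCore

set_option autoImplicit false

namespace Fermat.Agent.R38Ret

/-- **(R-CHI)** going-up. -/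
theorem goingUp (p M : ℕ) [NeZero M] (S : Finset ℕ) : GoingUp p M S := by
  intro a ha
  obtain ⟨g, 𝔪, hg, h𝔪, hp, hℓ⟩ := chi_goingUp (N := M) (↑S : Set ℕ) p a ha
  exact ⟨g, 𝔪, hg, h𝔪, hp, fun ℓ hℓp hℓS hℓM => hℓ ℓ hℓp hℓM (by simpa using hℓS)⟩

end Fermat.Agent.R38Ret
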