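/-
Row 38 (S44), block R (RET), input (a) (helper34): a Hecke relation which holds on
`HomPar N = Hom_par(Γ₀(N), ℤ)` holds on the torsion of `J₀(N)(ℚ̄)`.

`P` runs over the free (non-commutative) `ℤ`-algebra on the primes `ℓ ∤ N`; `heckeWordH N P` and
`heckeWordJ N P` are its values at the Hecke operators of `HomPar N` and of `J₀(N)(ℚ̄)`.

* `kap_heckeWord` : `κ_n (P(T) c) = P(T) (κ_n c)`;
* `heckeWordJ_torsion` : `P(T) = 0` on `HomPar N`  ⟹  `P(T) y = 0` for every torsion `y`;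
* `heckeWordJ_torsion_congr` : `P(T) = Q(T)` on `HomPar N` ⟹ `P(T) y = Q(T) y` for torsion `y`.
Inputs: `κ_n` (E/Desc/W/Kap.lean), `exists_kap_eq_nsmul` (W-PAR + W-LIFT), `jZero_divisible` (DIV).
-/
import Fermat.Agent.E.Desc.W.Final
import Fermat.Agent.Lib.Div.Inst

set_option autoImplicit false

noncomputable section

namespace Fermat.Agent.R38

open ModularCurve ModularCurve.Period CongruenceSubgroup AlgebraicCurve
open Fermat.Agent.F3I2 Fermat.Agent.F3EC Fermat.Agent.EDescW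

/-- the primes which do not divide `N`. -/
abbrev GoodPrime (N : ℕ) : Type := {ℓ : Nat.Primes // ¬ (ℓ : ℕ) ∣ N}

variable (N : ℕ) [NeZero N]

/-- the value of a Hecke word on `HomPar N`. -/
def heckeWordH : FreeAlgebra ℤ (GoodPrime N) →ₐ[ℤ] Module.End ℤ (HomPar N) :=
  FreeAlgebra.lift ℤ (fun ℓ : GoodPrime N => heckeHom N ℓ.1)

/-- the value of a Hecke word on `J₀(N)(ℚ̄)`. -/
def heckeWordJ : FreeAlgebra ℤ (GoodPrime N) →ₐ[ℤ] Module.End ℤ (JZero N) :=
  FreeAlgebra.lift ℤ (fun ℓ : GoodPrime N => heckeOperatorBar N ℓ.1)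

@[simp]
theorem heckeWordH_ι (ℓ : GoodPrime N) :
    heckeWordH N (FreeAlgebra.ι ℤ ℓ) = heckeHom N ℓ.1 := by
  simp [heckeWordH]

@[simp]
theorem heckeWordJ_ι (ℓ : GoodPrime N) :
    heckeWordJ N (FreeAlgebra.ι ℤ ℓ) = heckeOperatorBar N ℓ.1 := by
  simp [heckeWordJ]

variable {N}

/-- `κ_n` as an additive map. -/
def kapHom (n : ℕ) (hn : 0 < n) : HomPar N →+ JZero N where
  toFun := kap N n
  map_zero' := kap_zero hn
  map_add' := kap_add hn

@[simp]
theorem kapHom_apply (n : ℕ) (hn : 0 < n) (c : HomPar N) : kapHom n hn c = kap N n c := rfl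

/-- `κ_n` commutes with every Hecke word. -/
theorem kap_heckeWord {n : ℕ} (hn : 0 < n) (P : FreeAlgebra ℤ (GoodPrime N)) (c : HomPar N) :
    kap N n (heckeWordH N P c) = heckeWordJ N P (kap N n c) := by
  induction P using FreeAlgebra.induction generalizing c with
  | grade0 r =>
    rw [AlgHom.commutes, AlgHom.commutes, Module.algebraMap_end_apply,
      Module.algebraMap_end_apply, ← kapHom_apply n hn, ← kapHom_apply n hn, map_zsmul]
  | grade1 ℓ =>
    rw [heckeWordH_ι, heckeWordJ_ι]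
    exact kap_hecke hn ℓ.1 ℓ.2 c
  | mul a b ha hb =>
    rw [map_mul, map_mul, Module.End.mul_apply, Module.End.mul_apply, ha, hb]
  | add a b ha hb =>
    rw [map_add, map_add, LinearMap.add_apply, LinearMap.add_apply, kap_add hn, ha, hb]

/-- every torsion point is a value of some `κ_m`. -/
theorem exists_kap_eq_of_torsion {n : ℕ} (hn : 0 < n) (y : JZero N) (hy : n • y = 0) :
    ∃ (m : ℕ) (_ : 0 < m) (c : HomPar N), kap N m c = y := by
  obtain ⟨e, he, h⟩ := exists_kap_eq_nsmul N (parStatement N)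
  obtain ⟨w, hw⟩ := Fermat.Agent.Div.jZero_divisible N e he y
  have hm : 0 < n * e := Nat.mul_pos hn he
  have hw' : (n * e) • w = 0 := by rw [mul_nsmul', hw, hy]
  obtain ⟨c, hc⟩ := h (n * e) hm w hw'
  exact ⟨n * e, hm, c, by rw [hc, hw]⟩

/-- **(a)** a Hecke relation on `HomPar N` holds on the torsion of `J₀(N)(ℚ̄)`. -/
theorem heckeWordJ_torsion (P : FreeAlgebra ℤ (GoodPrime N)) (hP : heckeWordH N P = 0)
    {n : ℕ} (hn : 0 < n) (y : JZero N) (hy : n • y = 0) : heckeWordJ N P y = 0 := by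
  obtain ⟨m, hm, c, rfl⟩ := exists_kap_eq_of_torsion hn y hy
  rw [← kap_heckeWord hm, hP, LinearMap.zero_apply, kap_zero hm]

/-- two Hecke words with the same value on `HomPar N` agree on the torsion of `J₀(N)(ℚ̄)`. -/
theorem heckeWordJ_torsion_congr (P Q : FreeAlgebra ℤ (GoodPrime N))
    (hPQ : heckeWordH N P = heckeWordH N Q) {n : ℕ} (hn : 0 < n) (y : JZero N)
    (hy : n • y = 0) : heckeWordJ N P y = heckeWordJ N Q y := by
  have h := heckeWordJ_torsion (P - Q) (by rw [map_sub, hPQ, sub_self]) hn y hy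
  rw [map_sub, LinearMap.sub_apply, sub_eq_zero] at h
  exact h

end Fermat.Agent.R38
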