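/-
Row 38 (S44), block R (RET), seat R-C2.  Owner: helper17.

A Hecke word which vanishes on the cusp forms `S₂(Γ₀(N))` vanishes on the lattice
`HomPar N = Hom_par(Γ₀(N), ℤ)`:

  `cuspToHomPar_lift : FreeAlgebra.lift ℤ (T_ℓ on S₂) P = 0 → heckeWordH N P = 0`.

Proof: the Eichler–Shimura isomorphism `S₂ × S₂ ≃ ℂ ⊗ HomPar N` (S21, `F3EP.periodEquiv`) is
Hecke-equivariant (`F3EP.tauHom_heckeTLin`), so `tauHom (P(T) on S₂) = (P(T) on HomPar) ⊗ ℂ` for
every word `P`; base change `End_ℤ (HomPar N) → End_ℂ (ℂ ⊗ HomPar N)` is injective.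
With `R38.heckeWordJ_torsion` (helper34): such a word kills the torsion of `J₀(N)(ℚ̄)`.
-/
import Fermat.Agent.R38.Ret.TorsKill
import Fermat.Agent.F3.EigenPadic.Theta
import Fermat.Agent.F3.EigenChar.Involution

set_option autoImplicit false

noncomputable section

namespace Fermat.Agent.R38Ret

open ModularCurve ModularCurve.Period CongruenceSubgroup
open Fermat.Agent.F3EC Fermat.Agent.F3EP Fermat.Agent.R38
open scoped TensorProduct

set_option linter.unusedSectionVars false

variable (N : ℕ) [NeZero N]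

/-- the coset Hecke operators commute with the involution (all levels). -/
theorem cuspHom_heckeInvolutionComm : HeckeInvolutionComm N :=
  fun _ _ hℓN c => heckeHomAll_charInvolution hℓN c

/-- For every Hecke word `P`: the transport of `P(T)` on `S₂(Γ₀(N))` to `ℂ ⊗ HomPar N` is the base
change of `P(T)` on `HomPar N`. -/
theorem tauHom_cuspWord_eq (P : FreeAlgebra ℤ (GoodPrime N)) :
    tauHom N (FreeAlgebra.lift ℤ
        (fun ℓ : GoodPrime N => CuspForm.heckeTLin (N := N) 2 ℓ.1.2 ℓ.2) P) =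
      betaHom N (heckeWordH N P) := by
  induction P using FreeAlgebra.induction with
  | grade0 r =>
    rw [AlgHom.commutes, AlgHom.commutes, eq_intCast, eq_intCast, map_intCast, map_intCast]
  | grade1 ℓ =>
    rw [FreeAlgebra.lift_ι_apply, heckeWordH_ι, betaHom_apply]
    exact tauHom_heckeTLin N (cuspHom_heckeInvolutionComm N) ℓ.1.2 ℓ.2
  | mul a b ha hb =>
    rw [map_mul, map_mul, map_mul, map_mul, ha, hb]
  | add a b ha hb =>
    rw [map_add, map_add, map_add, map_add, ha, hb]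

/-- **(R-C2)** a Hecke word which vanishes on `S₂(Γ₀(N))` vanishes on `HomPar N`. -/
theorem cuspToHomPar_lift (P : FreeAlgebra ℤ (GoodPrime N))
    (hP : FreeAlgebra.lift ℤ
        (fun ℓ : GoodPrime N => CuspForm.heckeTLin (N := N) 2 ℓ.1.2 ℓ.2) P = 0) :
    heckeWordH N P = 0 := by
  apply betaHom_injective N
  rw [← tauHom_cuspWord_eq, hP, map_zero, map_zero]

/-- Conversely, a Hecke word which vanishes on `HomPar N` vanishes on `S₂(Γ₀(N))`. -/
theorem homParToCusp_lift (P : FreeAlgebra ℤ (GoodPrime N)) (hP : heckeWordH N P = 0) :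
    FreeAlgebra.lift ℤ
        (fun ℓ : GoodPrime N => CuspForm.heckeTLin (N := N) 2 ℓ.1.2 ℓ.2) P = 0 := by
  apply tauHom_injective N
  rw [tauHom_cuspWord_eq, hP, map_zero, map_zero]

/-- **(R-C)** a Hecke word which vanishes on `S₂(Γ₀(N))` kills the torsion of `J₀(N)(ℚ̄)`. -/
theorem cuspWord_kills_torsion (P : FreeAlgebra ℤ (GoodPrime N))
    (hP : FreeAlgebra.lift ℤ
        (fun ℓ : GoodPrime N => CuspForm.heckeTLin (N := N) 2 ℓ.1.2 ℓ.2) P = 0)
    {n : ℕ} (hn : 0 < n) (y : JZero N) (hy : n • y = 0) :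
    heckeWordJ N P y = 0 :=
  heckeWordJ_torsion P (cuspToHomPar_lift N P hP) hn y hy

end Fermat.Agent.R38Ret
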