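/-
Row 38 (S44), block R (RET), seat R-A2 (helper29): the reduction of the points fixed by a suitable
open subgroup fixing `x` has finite exponent.

`redFiniteExp (hstab : JZeroOpenStab M) (hfrob : RedFrobCompat p M) : RedFiniteExp p M`.

Proof: `L` a number field with `G_L` fixing `x` (R-STAB), `(Φ, s)` with `s ∈ G_L` and
`red ∘ s = Φ ∘ red` (R-FROB); `U := G_L`; if `w` is fixed by `U` then `red w` is fixed by `Φ`,
and the group of the classes fixed by `Φ` is finite (S27, part D): `m` := its order.
-/
import Fermat.Agent.R38.Ret.Defs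
import Fermat.Agent.S27.Zeta.Main
import Fermat.Agent.Lib.GaussInt.ModularInst

set_option autoImplicit false

noncomputable section

namespace Fermat.Agent.R38Ret

open ModularCurve AlgebraicCurve Fermat.Agent.F3 Fermat.Agent.S27

local notation "Qb" => AlgebraicClosure ℚ

/-- the subgroup of `G_ℚ` fixing a subfield pointwise. -/
def feFix (L : IntermediateField ℚ Qb) : Subgroup GQ where
  carrier := {s | ∀ y ∈ L, s y = y}
  one_mem' := fun _ _ => rfl
  mul_mem' := by
    intro a b ha hb y hy
    show a (b y) = y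
    rw [hb y hy, ha y hy]
  inv_mem' := by
    intro a ha y hy
    have h1 := ha y hy
    show a⁻¹ y = y
    calc a⁻¹ y = a⁻¹ (a y) := by rw [h1]
      _ = y := by
        show (a⁻¹ * a) y = y
        rw [inv_mul_cancel]
        rfl

theorem mem_feFix {L : IntermediateField ℚ Qb} {s : GQ} : s ∈ feFix L ↔ ∀ y ∈ L, s y = y :=
  Iff.rfl

set_option synthInstance.maxHeartbeats 400000 in
set_option maxHeartbeats 1000000 in
/-- **(R-A2)** -/
theorem redFiniteExp {p M : ℕ} [NeZero M] (hstab : JZeroOpenStab M)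
    (hfrob : RedFrobCompat p M) : RedFiniteExp p M := by
  intro A hA x
  obtain ⟨L, hLfin, hL⟩ := hstab x
  obtain ⟨Φ, s, hsL, hs⟩ := hfrob A hA L hLfin
  have : IsAlgClosed (IsLocalRing.ResidueField A) :=
    Fermat.Agent.FrobTrace.isAlgClosed_residueField A
  have hRR : Fermat.Agent.RR.IsRRField (IsLocalRing.ResidueField A)
      (modularFunctionFieldFullC (IsLocalRing.ResidueField A) M) :=
    Fermat.Agent.RRMod.isRRField_fullC' (IsLocalRing.ResidueField A) M
  have hfin := finite_fixedPow hRR Φ 1 one_pos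
  have : Finite (fixedPow Φ.sigmaEnd 1) := hfin.to_subtype
  refine ⟨feFix L, Nat.card (fixedPow Φ.sigmaEnd 1), Nat.card_pos.ne', fun t ht => hL t ht, ?_⟩
  intro w hw
  have h1 : reductionModL A M w ∈ fixedPow Φ.sigmaEnd 1 := by
    show (Φ.sigmaEnd ^ 1) (reductionModL A M w) = reductionModL A M w
    rw [pow_one, ← hs w, hw s hsL]
  have h2 : Nat.card (fixedPow Φ.sigmaEnd 1) •
      (⟨reductionModL A M w, h1⟩ : fixedPow Φ.sigmaEnd 1) = 0 := card_nsmul_eq_zero'
  have h3 := congrArg (Subtype.val) h2
  rw [AddSubgroup.coe_nsmul, ZeroMemClass.coe_zero] at h3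
  exact h3

end Fermat.Agent.R38Ret
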