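/-
Row 38 (S44), block R (RET), RIG wiring (helper29): rigidity by division for `J₀(M)(ℚ̄)`.

`rigStatement (hexp : RedFiniteExp p M) : RigStatement p M`.

Proof (division, as in `R38/Rig.lean`, with a subgroup `U` in place of one element): for `x` take
`(U, m)` from `RedFiniteExp`, divide `x = m • x'` (`Div.jZero_divisible`); for `s ∈ U` the point
`s • x' - x'` is `m`-torsion, so `φ x'` is fixed by `U` (`φ` commutes with `G_ℚ`:
`F3G.heckeGaloisComm`), hence `m • red (φ x') = 0`, i.e. `red (φ x) = 0`.
-/
import Fermat.Agent.R38.Ret.Defs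
import Fermat.Agent.F3.Galois.HeckeComm
import Fermat.Agent.Lib.Div.Inst

set_option autoImplicit false

noncomputable section

namespace Fermat.Agent.R38Ret

open ModularCurve AlgebraicCurve Fermat.Agent.F3

local notation "Qb" => AlgebraicClosure ℚ

/-- every element of the ring generated by the Hecke operators commutes with `G_ℚ`. -/
theorem ri_comm_of_mem_adjoin (M : ℕ) [NeZero M] {φ : Module.End ℤ (JZero M)}
    (hφ : φ ∈ Algebra.adjoin ℤ (Set.range (heckeOperatorBar M))) (s : GQ) (x : JZero M) :
    φ (s • x) = s • φ x := by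
  induction hφ using Algebra.adjoin_induction generalizing x with
  | mem φ hφ =>
    obtain ⟨ℓ, rfl⟩ := hφ
    exact Fermat.Agent.F3G.heckeGaloisComm M ℓ s x
  | algebraMap r =>
    rw [Module.algebraMap_end_apply, Module.algebraMap_end_apply, smul_comm]
  | add φ ψ _ _ h1 h2 =>
    rw [LinearMap.add_apply, LinearMap.add_apply, h1, h2, smul_add]
  | mul φ ψ _ _ h1 h2 =>
    rw [Module.End.mul_apply, Module.End.mul_apply, h2, h1]

/-- **(RIG)** rigidity by division. -/
theorem rigStatement {p M : ℕ} [NeZero M] (hexp : RedFiniteExp p M) : RigStatement p M := by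
  intro A hA φ hφ htors x
  obtain ⟨U, m, hm, hUx, hUw⟩ := hexp A hA x
  have hmpos : 0 < m := Nat.pos_of_ne_zero hm
  obtain ⟨x', hx'⟩ := Fermat.Agent.Div.jZero_divisible M m hmpos x
  have hfix : ∀ s ∈ U, s • φ x' = φ x' := by
    intro s hs
    have h0 : s • (m • x') = m • (s • x') :=
      map_nsmul (DistribSMul.toAddMonoidHom (JZero M) s) m x'
    have h1 : m • (s • x' - x') = 0 := by
      rw [nsmul_sub, ← h0, hx', hUx s hs, sub_self]
    have h2 : φ (s • x' - x') = 0 := htors m _ hmpos h1
    rw [map_sub, sub_eq_zero, ri_comm_of_mem_adjoin M hφ] at h2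
    exact h2
  have h3 := hUw (φ x') hfix
  rw [← hx', map_nsmul, map_nsmul]
  exact h3

end Fermat.Agent.R38Ret
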