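import Fermat.Agent.R38.Ret.Tors
import Fermat.Agent.R38.Ret.RigInst
import Fermat.Agent.R38.Ret.FinExp
import Fermat.Agent.R38.Ret.Chi
import Fermat.Agent.E.S15.HeckeRed
import Fermat.Agent.S17.W.OpenStab

/-!
# Row 38, block R (RET): the assembly  (sub-architect helper44)

`retStatement_of_frob` : `RedFrobCompat p M → RetStatement p M S`
(`p` prime, `p ∤ M`, `p ∈ S`, the primes of `M` in `S`).

Proof.  Let `x` be as in `RetInput`: `red x ≠ 0`, `p • red x = 0`, `red (T_ℓ x - a ℓ • x) = 0`.
For a Hecke word `P` in the primes outside `S` write `P x` for its value on `J₀(M)(ℚ̄)`.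
* `ret_word_red_eq_zero` : a word which is `0` in the Hecke algebra of cusp forms kills the torsion
  (`tcEvT_eq_zero`, helper34), hence `red (P x) = 0` (rigidity by division: `rigStatement`);
* `ret_word_ker` : the kernel of `red` is stable under the words (`ES15.heckeRed_of_not_dvd`);
* `ret_ideal` : for every `t` in the ideal generated by `p` and the `T_ℓ - a ℓ`, every word `P`
  with value `t` has `red (P x) = 0`.
So `1` is not in this ideal, and `goingUp` (helper17) gives the eigenform.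
-/

set_option autoImplicit false
set_option linter.unusedSectionVars false
set_option linter.unusedVariables false

noncomputable section

namespace Fermat.Agent.R38Ret

open ModularCurve AlgebraicCurve Fermat.Agent.F3 Fermat.Agent.R38

local notation "Qb" => AlgebraicClosure ℚ

variable {M : ℕ} [NeZero M] {S : Finset ℕ}

/-- the value on `J₀(M)(ℚ̄)` of a Hecke word in the primes outside `S`. -/
def retEvJ (M : ℕ) [NeZero M] (S : Finset ℕ) :
    FreeAlgebra ℤ (OutPrime M S) →ₐ[ℤ] Module.End ℤ (JZero M) :=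
  (heckeWordJ M).comp (tcMap M S)

theorem retEvJ_apply (P : FreeAlgebra ℤ (OutPrime M S)) :
    retEvJ M S P = heckeWordJ M (tcMap M S P) := rfl

theorem retEvJ_ι (ℓ : OutPrime M S) :
    retEvJ M S (FreeAlgebra.ι ℤ ℓ) = heckeOperatorBar M ℓ.1 := by
  rw [retEvJ_apply, tcMap_ι, heckeWordJ_ι]

/-- the values of the Hecke words lie in the ring generated by the Hecke operators. -/
theorem ret_heckeWordJ_mem (Q : FreeAlgebra ℤ (GoodPrime M)) :
    heckeWordJ M Q ∈ Algebra.adjoin ℤ (Set.range (heckeOperatorBar M)) := by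
  induction Q using FreeAlgebra.induction with
  | grade0 r =>
    rw [AlgHom.commutes]
    exact Subalgebra.algebraMap_mem _ r
  | grade1 ℓ =>
    rw [heckeWordJ_ι]
    exact Algebra.subset_adjoin ⟨ℓ.1, rfl⟩
  | mul a b ha hb =>
    rw [map_mul]
    exact Subalgebra.mul_mem _ ha hb
  | add a b ha hb =>
    rw [map_add]
    exact Subalgebra.add_mem _ ha hb

/-- a word which is `0` on cusp forms has value `0` after reduction. -/
theorem ret_word_red_eq_zero {p : ℕ} (hMS : ∀ q : ℕ, q.Prime → q ∣ M → q ∈ (↑S : Set ℕ))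
    (hrig : RigStatement p M) (A : ValuationSubring Qb) (hA : A.LiesOverPrime p)
    (P : FreeAlgebra ℤ (OutPrime M S)) (hP : tcEvS M S P = 0) (x : JZero M) :
    reductionModL A M (retEvJ M S P x) = 0 := by
  refine hrig A hA (retEvJ M S P) (ret_heckeWordJ_mem _) ?_ x
  intro n y hn hy
  have hy' : y ∈ Jtors M n := by
    rw [Submodule.mem_torsionBy_iff, natCast_zsmul]
    exact hy
  have h1 := tcEvT_coe (M := M) (S := S) n P ⟨y, hy'⟩
  rw [tcEvT_eq_zero hMS hn P hP] at h1
  rw [retEvJ_apply]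
  exact h1.symm

/-- the kernel of the reduction is stable under the Hecke words in the primes outside `S`. -/
theorem ret_word_ker {p : ℕ} (hp : p.Prime) (hpM : ¬ p ∣ M) (hpS : p ∈ S)
    (A : ValuationSubring Qb) (hA : A.LiesOverPrime p)
    (P : FreeAlgebra ℤ (OutPrime M S)) (u : JZero M) (hu : reductionModL A M u = 0) :
    reductionModL A M (retEvJ M S P u) = 0 := by
  induction P using FreeAlgebra.induction generalizing u with
  | grade0 r =>
    rw [AlgHom.commutes, Module.algebraMap_end_apply, map_zsmul, hu, smul_zero]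
  | grade1 ℓ =>
    rw [retEvJ_ι]
    have hne : ((ℓ.1 : Nat.Primes) : ℕ) ≠ p := by
      intro h
      exact ℓ.2.2 (by rw [h]; exact Finset.mem_coe.mpr hpS)
    exact Fermat.Agent.ES15.heckeRed_of_not_dvd M A p hp hA hpM ℓ.1 hne u hu
  | mul a b ha hb =>
    rw [map_mul, Module.End.mul_apply]
    exact ha _ (hb u hu)
  | add a b ha hb =>
    rw [map_add, LinearMap.add_apply, map_add, ha u hu, hb u hu, add_zero]

/-- every word whose value lies in the eigen-ideal modulo `p` kills `x` after reduction. -/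
theorem ret_ideal {p : ℕ} (hp : p.Prime) (hpM : ¬ p ∣ M) (hpS : p ∈ S)
    (hMS : ∀ q : ℕ, q.Prime → q ∣ M → q ∈ (↑S : Set ℕ))
    (hrig : RigStatement p M) (A : ValuationSubring Qb) (hA : A.LiesOverPrime p)
    (a : ℕ → ℤ) (x : JZero M) (hxp : p • reductionModL A M x = 0)
    (hxe : ∀ ℓ : Nat.Primes, (ℓ : ℕ) ∉ S →
      reductionModL A M (heckeOperatorBar M ℓ x - a ℓ • x) = 0)
    (t : CuspForm.heckeAlgebra M 2 (↑S : Set ℕ)) (ht : t ∈ eigenIdealModP p M S a) :
    ∀ P : FreeAlgebra ℤ (OutPrime M S), tcEvS M S P = t →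
      reductionModL A M (retEvJ M S P x) = 0 := by
  -- two words with the same value have the same reduction at `x`
  have hcongr : ∀ P Q : FreeAlgebra ℤ (OutPrime M S), tcEvS M S P = tcEvS M S Q →
      reductionModL A M (retEvJ M S Q x) = 0 → reductionModL A M (retEvJ M S P x) = 0 := by
    intro P Q hPQ hQ
    have h0 : tcEvS M S (P - Q) = 0 := by rw [map_sub, hPQ, sub_self]
    have h1 := ret_word_red_eq_zero hMS hrig A hA (P - Q) h0 x
    rw [map_sub, LinearMap.sub_apply, map_sub, hQ, sub_zero] at h1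
    exact h1
  unfold eigenIdealModP at ht
  induction ht using Submodule.span_induction with
  | mem t ht =>
    intro P hP
    rcases ht with ht | ⟨ℓ, hℓ, hℓM, hℓS, rfl⟩
    · rw [Set.mem_singleton_iff] at ht
      subst ht
      refine hcongr P ((p : ℕ) : FreeAlgebra ℤ (OutPrime M S)) ?_ ?_
      · rw [hP, map_natCast]
      · rw [map_natCast]
        have h2 : ((p : ℕ) : Module.End ℤ (JZero M)) x = p • x := by
          rw [← nsmul_one, LinearMap.smul_apply, Module.End.one_apply]
        rw [h2, map_nsmul]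
        exact hxp
    · refine hcongr P (FreeAlgebra.ι ℤ (⟨⟨ℓ, hℓ⟩, hℓM, hℓS⟩ : OutPrime M S) -
          algebraMap ℤ _ (a ℓ)) ?_ ?_
      · rw [hP, map_sub, tcEvS_ι, AlgHom.commutes]
        rfl
      · rw [map_sub, retEvJ_ι, AlgHom.commutes, LinearMap.sub_apply,
          Module.algebraMap_end_apply]
        exact hxe ⟨ℓ, hℓ⟩ (fun h => hℓS (Finset.mem_coe.mpr h))
  | zero =>
    intro P hP
    exact ret_word_red_eq_zero hMS hrig A hA P hP x
  | add t₁ t₂ _ _ h₁ h₂ =>
    intro P hP
    obtain ⟨P₁, hP₁⟩ := tcEvS_surjective hMS t₁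
    have hP₂ : tcEvS M S (P - P₁) = t₂ := by rw [map_sub, hP, hP₁, add_sub_cancel_left]
    have h : retEvJ M S P x = retEvJ M S P₁ x + retEvJ M S (P - P₁) x := by
      rw [map_sub, LinearMap.sub_apply, add_sub_cancel]
    rw [h, map_add, h₁ P₁ hP₁, h₂ (P - P₁) hP₂, add_zero]
  | smul r t _ h =>
    intro P hP
    obtain ⟨Pr, hPr⟩ := tcEvS_surjective hMS r
    obtain ⟨Pt, hPt⟩ := tcEvS_surjective hMS t
    refine hcongr P (Pr * Pt) ?_ ?_
    · rw [hP, map_mul, hPr, hPt, smul_eq_mul]
    · rw [map_mul, Module.End.mul_apply]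
      exact ret_word_ker hp hpM hpS A hA Pr _ (h Pt hPt)

/-- the eigen-ideal modulo `p` attached to a `RetInput` is proper. -/
theorem ret_eigenIdeal_ne_top {p : ℕ} (hp : p.Prime) (hpM : ¬ p ∣ M) (hpS : p ∈ S)
    (hMS : ∀ q : ℕ, q.Prime → q ∣ M → q ∈ (↑S : Set ℕ))
    (hrig : RigStatement p M) (A : ValuationSubring Qb) (hA : A.LiesOverPrime p)
    (a : ℕ → ℤ) (h : RetInput p M S A a) : eigenIdealModP p M S a ≠ ⊤ := by
  obtain ⟨x, hx0, hxp, hxe⟩ := h
  intro htop
  have h1 : (1 : CuspForm.heckeAlgebra M 2 (↑S : Set ℕ)) ∈ eigenIdealModP p M S a := by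
    rw [htop]
    exact Submodule.mem_top
  have h2 := ret_ideal hp hpM hpS hMS hrig A hA a x hxp hxe 1 h1 1 (map_one _)
  rw [map_one, Module.End.one_apply] at h2
  exact hx0 h2

/-- **(RET)** from rigidity. -/
theorem retStatement_of_rig {p : ℕ} (hp : p.Prime) (hpM : ¬ p ∣ M) (hpS : p ∈ S)
    (hMS : ∀ q : ℕ, q.Prime → q ∣ M → q ∈ S) (hrig : RigStatement p M) :
    RetStatement p M S := by
  intro A hA a hin
  have hMS' : ∀ q : ℕ, q.Prime → q ∣ M → q ∈ (↑S : Set ℕ) :=
    fun q hq hqM => Finset.mem_coe.mpr (hMS q hq hqM)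
  exact goingUp p M S a (ret_eigenIdeal_ne_top hp hpM hpS hMS' hrig A hA a hin)

/-- **(RET)** from the compatibility of the reduction with a Frobenius structure. -/
theorem retStatement_of_frob {p : ℕ} (hp : p.Prime) (hpM : ¬ p ∣ M) (hpS : p ∈ S)
    (hMS : ∀ q : ℕ, q.Prime → q ∣ M → q ∈ S) (hfrob : RedFrobCompat p M) :
    RetStatement p M S :=
  retStatement_of_rig hp hpM hpS hMS
    (rigStatement (redFiniteExp (fun x => Fermat.Agent.S17W.openStab M x) hfrob))

end Fermat.Agent.R38Ret
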