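/-
Row 38, block R (RET), seat R-FROB (b) (helper79): the Deuring reduction of divisors commutes with
semilinear automorphisms.  ABSTRACT CORE.

Setting: a constant reduction `S : ValSetup K E k Ek`, a semilinear automorphism `g` of `E / K`
which preserves the valuation ring `S.Ov`, and a semilinear automorphism `gk` of `Ek / k` with
`red (g • f) = gk • red f` on `S.Ov`.  If `r` is a map of places with the push property, so is
`P ↦ gk⁻¹ • r (g • P)`; since two maps of places with the push property agree on the divisors of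
degree `0` (if `Pic⁰` is divisible), `r_* (g • D) = gk • r_* D` for every `D` of degree `0`.
-/
import Mathlib
import Fermat.Agent.E.S15.HeckeRedCore
import Fermat.Agent.S37.Maps

set_option autoImplicit false
set_option linter.style.haveILetI false
set_option linter.unusedSectionVars false

noncomputable section

open AlgebraicCurve Fermat.Agent.RR Fermat.Agent.Deuring Fermat.Agent.FF Fermat.Agent.RedTr

namespace Fermat.Agent.R38Ret

variable {K E k Ek : Type*} [Field K] [Field E] [Algebra K E]
  [Field k] [Field Ek] [Algebra k Ek]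

/-- the push-forward along `P ↦ gk⁻¹ • r (g • P)`. -/
theorem galRed_mapDomain (g : SemilinearAut K E) (gk : SemilinearAut k Ek)
    (r : Place K E → Place k Ek) (D : Divisor K E) :
    Finsupp.mapDomain (fun P => gk⁻¹ • r (g • P)) D =
      gk⁻¹ • Finsupp.mapDomain r (g • D) := by
  rw [SemilinearAut.divisor_smul_def, SemilinearAut.divisor_smul_def,
    ← Finsupp.mapDomain_comp, ← Finsupp.mapDomain_comp]
  rfl

/-- `P ↦ gk⁻¹ • r (g • P)` has the push property. -/
theorem galRed_isPush (S : ValSetup K E k Ek) (g : SemilinearAut K E)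
    (gk : SemilinearAut k Ek)
    (hmem : ∀ f : E, f ∈ S.Ov → g • f ∈ S.Ov)
    (hred : ∀ f : E, f ∈ S.Ov → S.red (g • f) = gk • S.red f)
    {r : Place K E → Place k Ek} (hr : IsPush S r) :
    IsPush S (fun P => gk⁻¹ • r (g • P)) := by
  intro f hf hf' hf0 Q
  have hgf : g • f ∈ S.Ov := hmem f hf
  have hgf' : (g • f)⁻¹ ∈ S.Ov := by
    have h := hmem _ hf'
    rwa [smul_inv''] at h
  have hgf0 : g • f ≠ 0 := by
    rwa [Ne, smul_eq_zero_iff_eq]
  rw [galRed_mapDomain, ← Fermat.Agent.S37.divOf_smul_aut S.hF g f, ← redDiv_apply,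
    Fermat.Agent.ES15.heckeRed_redDiv_divOf hr hgf hgf' hgf0, hred f hf,
    Fermat.Agent.S37.divOf_smul_aut S.hFk gk, inv_smul_smul, divOf_apply]

/-- **the reduction of divisors of degree `0` commutes with semilinear automorphisms.** -/
theorem galRed_redDiv (S : ValSetup K E k Ek) (g : SemilinearAut K E)
    (gk : SemilinearAut k Ek)
    (hmem : ∀ f : E, f ∈ S.Ov → g • f ∈ S.Ov)
    (hred : ∀ f : E, f ∈ S.Ov → S.red (g • f) = gk • S.red f)
    {r : Place K E → Place k Ek} (hr : IsPush S r)
    (hdiv : ∀ n : ℕ, n ≠ 0 → ∀ x : Pic0 K E, ∃ y : Pic0 K E, n • y = x)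
    {D : Divisor K E} (hD : D ∈ Divisor.degZero (K := K) (F := E)) :
    redDiv r (g • D) = gk • redDiv r D := by
  have h := Fermat.Agent.ES15.heckeRed_redDiv_eq S (galRed_isPush S g gk hmem hred hr) hr hdiv hD
  rw [redDiv_apply, galRed_mapDomain, ← redDiv_apply] at h
  rw [← h, smul_inv_smul]

end Fermat.Agent.R38Ret
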