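/-
Row 38, block R (RET), seat R-FROB, assembly (helper79): `RedFrobCompat` at a place `A` over a
prime `p ∤ M`.

For every number field `L` there are a Frobenius structure `Φ` on `F_k(M)` (helper55,
`R38/R/Fin.lean`) and `s ∈ G_L` (a power of a Frobenius element at `A`) with
`red (s • w) = Φ (red w)` for all `w ∈ J₀(M)(ℚ̄)` (`galRed_frobenius_pow`).

* `galRed_halg` : every element of the residue field of `A` lies in a finite field
  (`c ^ (p ^ n) = c`), by the Frobenius elements;
* `redFrobCompat_at` : the statement of `RedFrobCompat p M` at `A`, for `p` prime, `p ∤ M`;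
* `redFrobCompat hp hpM : RedFrobCompat p M`.
-/
import Mathlib
import Fermat.Agent.R38.Ret.GalRed
import Fermat.Agent.R38.Ret.Defs
import Fermat.Agent.R38.R.Fin
import Fermat.Agent.Lib.FrobDensity.Bridge
import Fermat.Agent.Lib.FrobTrace.Residue

set_option autoImplicit false
set_option linter.style.haveILetI false
set_option linter.unusedSectionVars false
set_option synthInstance.maxHeartbeats 400000

noncomputable section

open AlgebraicCurve ModularCurve HahnSeries Fermat.Agent.RR Fermat.Agent.BadRed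

namespace Fermat.Agent.R38Ret

local notation "Qb" => AlgebraicClosure ℚ
local notation "GQ" => (AlgebraicClosure ℚ ≃ₐ[ℚ] AlgebraicClosure ℚ)

/-- the powers of a Frobenius element act on the residue field by `x ↦ x ^ (ℓ ^ m)`. -/
theorem galRed_frob_pow_smul (A : ValuationSubring Qb) (ℓ : ℕ) (σ : GQ)
    (hσ : A.IsFrobeniusAt σ ℓ) (m : ℕ) (x : IsLocalRing.ResidueField A) :
    ((⟨σ, hσ.mem_decompositionSubgroup⟩ : A.decompositionSubgroup ℚ) ^ m) • x = x ^ (ℓ ^ m) := by
  induction m generalizing x with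
  | zero => rw [pow_zero, one_smul, pow_zero, pow_one]
  | succ m ih =>
    rw [pow_succ, mul_smul, hσ.smul_residue_eq, ih, ← pow_mul, ← pow_succ']

/-- every element of the residue field of a place of `ℚ̄` over `ℓ` lies in a finite field. -/
theorem galRed_halg (A : ValuationSubring Qb) (ℓ : ℕ) (hℓ : ℓ.Prime) (hA : A.LiesOverPrime ℓ)
    (c : IsLocalRing.ResidueField A) : ∃ n : ℕ, 0 < n ∧ c ^ (ℓ ^ n) = c := by
  obtain ⟨σ, hσ, -, -⟩ := Fermat.Agent.FrobBridge.exists_isFrobeniusAt_of_liesOver A ℓ hℓ hA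
  obtain ⟨a, rfl⟩ := IsLocalRing.residue_surjective c
  haveI : FiniteDimensional ℚ (IntermediateField.adjoin ℚ {(a : Qb)}) :=
    IntermediateField.adjoin.finiteDimensional
      ((AlgebraicClosure.isAlgebraic ℚ).isAlgebraic (a : Qb)).isIntegral
  obtain ⟨m, hm, hfix⟩ := galRed_exists_pow_fix σ (IntermediateField.adjoin ℚ {(a : Qb)})
  refine ⟨m, hm, ?_⟩
  have ha : (σ ^ m) (a : Qb) = a :=
    hfix _ (IntermediateField.subset_adjoin ℚ _ (Set.mem_singleton _))
  have h1 : ((⟨σ, hσ.mem_decompositionSubgroup⟩ : A.decompositionSubgroup ℚ) ^ m) • a = a := by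
    apply Subtype.ext
    exact ha
  rw [← galRed_frob_pow_smul A ℓ σ hσ m, ← IsLocalRing.ResidueField.residue_smul, h1]

set_option maxHeartbeats 1600000 in
/-- **R-FROB** at a place `A` over a prime `p ∤ M`: for every number field `L` there are a
Frobenius structure `Φ` on `F_k(M)` and `s ∈ G_L` with `red ∘ s = Φ ∘ red` on `J₀(M)(ℚ̄)`. -/
theorem redFrobCompat_at {p M : ℕ} [NeZero M] (hp : p.Prime) (hpM : ¬ p ∣ M)
    (A : ValuationSubring Qb) (hA : A.LiesOverPrime p)
    (L : IntermediateField ℚ Qb) (hL : FiniteDimensional ℚ L) :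
    ∃ (Φ : Fermat.Agent.S27.FrobStr (IsLocalRing.ResidueField A)
        (modularFunctionFieldFullC (IsLocalRing.ResidueField A) M)) (s : GQ),
      (∀ y ∈ L, s y = y) ∧
      ∀ w : JZero M, reductionModL A M (s • w) = Φ.sigmaEnd (reductionModL A M w) := by
  haveI : Fact p.Prime := ⟨hp⟩
  haveI : CharP (IsLocalRing.ResidueField A) p := Fermat.Agent.FrobTrace.charP_residueField A hA
  haveI : IsAlgClosed (IsLocalRing.ResidueField A) :=
    Fermat.Agent.FrobTrace.isAlgClosed_residueField A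
  haveI : PerfectRing (IsLocalRing.ResidueField A) p := inferInstance
  obtain ⟨σ, hσ, -, -⟩ := Fermat.Agent.FrobBridge.exists_isFrobeniusAt_of_liesOver A p hp hA
  obtain ⟨P₀⟩ := nonempty_place
    (Fermat.Agent.RRMod.isRRField_fullC' (IsLocalRing.ResidueField A) M)
  obtain ⟨j, hj, hS⟩ := Fermat.Agent.R38.fin_frobAut_exists_frobStr
    (IsLocalRing.ResidueField A) M p (galRed_halg A p hp hA) P₀
  obtain ⟨m, hm, hfix⟩ := galRed_exists_pow_fix (σ ^ j) L
  obtain ⟨S, -, -, hSσ, -⟩ := hS m hm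
  refine ⟨S, (σ ^ j) ^ m, hfix, fun w => ?_⟩
  rw [Fermat.Agent.S27.FrobStr.sigmaEnd_apply, hSσ, ← pow_mul,
    galRed_frobenius_pow A p M hA hpM σ hσ (j * m) w]

/-- **(R-FROB)**: `RedFrobCompat p M` for a prime `p ∤ M`. -/
theorem redFrobCompat {p M : ℕ} [NeZero M] (hp : p.Prime) (hpM : ¬ p ∣ M) :
    RedFrobCompat p M :=
  fun A hA L hL => redFrobCompat_at hp hpM A hA L hL

end Fermat.Agent.R38Ret
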