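import Fermat.Agent.R38.Ret.Final
import Fermat.Agent.R38.Ret.FrobCompat
import Fermat.Agent.R38.Spine

/-!
# Row 38, block R (RET): `(RET)` and the junction `SpJR` of the spine  (sub-architect helper44)

* `retStatement : RetStatement p M S` for `p` prime, `p ∤ M`, `p ∈ S`, the primes of `M` in `S`
  (`retStatement_of_frob` of `Ret/Final.lean` + `redFrobCompat` of helper79);
* `spJR : R38.SpJR`.
-/

set_option autoImplicit false

namespace Fermat.Agent.R38Ret

/-- **(RET)**: block R. -/
theorem retStatement {p M : ℕ} [NeZero M] (hp : p.Prime) (hpM : ¬ p ∣ M) {S : Finset ℕ}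
    (hpS : p ∈ S) (hMS : ∀ q : ℕ, q.Prime → q ∣ M → q ∈ S) : RetStatement p M S :=
  retStatement_of_frob hp hpM hpS hMS (redFrobCompat hp hpM)

/-- **J-R**, the junction of the spine of row 38. -/
theorem spJR : Fermat.Agent.R38.SpJR :=
  fun _ _ _ hp _ hpM _ hpS hMS => retStatement hp hpM hpS hMS

end Fermat.Agent.R38Ret
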