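/-
Row 38, block R (route theta), Mathlib-only field theory (helper29).

`k` a perfect field of characteristic `p`, `F ⊇ k` a field, `x : F` such that `F / k(x)` is
separable algebraic (a separating element), `D` a `k`-derivation of `F` with `D x ≠ 0`.
Then the kernel of `D` is `F ^ p`:

* `kd_exists_pow_of_deriv_eq_zero : D f = 0 → ∃ s, s ^ p = f`
* `kd_deriv_eq_zero_iff : D f = 0 ↔ ∃ s, s ^ p = f`

Proof: `F = F^p[x]` (separability), so `f = Q(x)` with `Q ∈ F^p[X]` of degree `m < p`;
`(D / D x)^m f = m! · lc(Q)`, which vanishes if `m ≥ 1` and `D f = 0`.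
-/
import Mathlib

set_option autoImplicit false

noncomputable section

namespace Fermat.Agent.R38

open Polynomial IntermediateField

variable (p : ℕ) [hp : Fact p.Prime] {k F : Type*} [Field k] [Field F] [Algebra k F]

/-- the subfield `F ^ p` of a field of characteristic `p`. -/
def kdPow (F : Type*) [Field F] [CharP F p] : Subfield F := (frobenius F p).fieldRange

theorem kd_mem_kdPow_iff [CharP F p] {f : F} : f ∈ kdPow p F ↔ ∃ s : F, s ^ p = f := by
  unfold kdPow
  rw [RingHom.mem_fieldRange]
  simp only [frobenius_def]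

theorem kd_pow_mem [CharP F p] (s : F) : s ^ p ∈ kdPow p F :=
  (kd_mem_kdPow_iff p).mpr ⟨s, rfl⟩

/-- constants of a perfect field are `p`-th powers. -/
theorem kd_algebraMap_mem [CharP k p] [CharP F p] [PerfectField k] (c : k) :
    algebraMap k F c ∈ kdPow p F := by
  obtain ⟨d, hd⟩ := surjective_frobenius k p c
  rw [kd_mem_kdPow_iff]
  refine ⟨algebraMap k F d, ?_⟩
  rw [← map_pow, ← hd, frobenius_def]

/-- a derivation kills `p`-th powers. -/
theorem kd_deriv_pow [CharP F p] (D : Derivation k F F) (s : F) : D (s ^ p) = 0 := by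
  rw [D.leibniz_pow]
  have : ((p : ℕ) : F) = 0 := CharP.cast_eq_zero F p
  rw [nsmul_eq_mul, this, zero_mul]

/-! ### `F = F^p[x]` -/

section Adjoin

variable [CharP F p] (x : F)

/-- `F^p[x]`, as a subalgebra over `F^p`. -/
def kdAdj : Subalgebra (kdPow p F) F := Algebra.adjoin (kdPow p F) {x}

theorem kd_mem_kdAdj_iff {f : F} :
    f ∈ kdAdj p x ↔ ∃ Q : (kdPow p F)[X], aeval x Q = f := by
  unfold kdAdj
  rw [Algebra.adjoin_singleton_eq_range_aeval]
  exact Iff.rfl

theorem kd_self_mem : x ∈ kdAdj p x := Algebra.subset_adjoin rfl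

theorem kd_kdPow_le {f : F} (hf : f ∈ kdPow p F) : f ∈ kdAdj p x :=
  (kdAdj p x).algebraMap_mem ⟨f, hf⟩

theorem kd_inv_mem {f : F} (hf : f ∈ kdAdj p x) : f⁻¹ ∈ kdAdj p x := by
  rcases eq_or_ne f 0 with rfl | h0
  · rw [inv_zero]
    exact zero_mem _
  · have h1 : f⁻¹ = f ^ (p - 1) * (f⁻¹) ^ p := by
      have hp1 : p = (p - 1) + 1 := (Nat.succ_pred_eq_of_pos hp.out.pos).symm
      rw [inv_pow]
      field_simp
      rw [← pow_succ', ← hp1]
    rw [h1]
    exact mul_mem (pow_mem hf _) (kd_kdPow_le p x (kd_pow_mem p _))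

/-- `F^p[x]` as an intermediate field of `F / k`. -/
def kdInter (k : Type*) [Field k] [Algebra k F] [CharP k p] [PerfectField k] :
    IntermediateField k F where
  carrier := kdAdj p x
  mul_mem' := fun ha hb => mul_mem ha hb
  add_mem' := fun ha hb => add_mem ha hb
  algebraMap_mem' := fun c => kd_kdPow_le p x (kd_algebraMap_mem p c)
  inv_mem' := fun _ ha => kd_inv_mem p x ha

theorem kd_mem_kdInter_iff [CharP k p] [PerfectField k] {f : F} :
    f ∈ kdInter p x k ↔ f ∈ kdAdj p x := Iff.rfl

/-- `F^p[x]` as an intermediate field of `F / k(x)`. -/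
def kdInter' (k : Type*) [Field k] [Algebra k F] [CharP k p] [PerfectField k] :
    IntermediateField k⟮x⟯ F where
  carrier := kdAdj p x
  mul_mem' := fun ha hb => mul_mem ha hb
  add_mem' := fun ha hb => add_mem ha hb
  algebraMap_mem' := fun c => by
    have h1 : k⟮x⟯ ≤ kdInter p x k := by
      rw [adjoin_simple_le_iff]
      exact kd_self_mem p x
    exact h1 c.2
  inv_mem' := fun _ ha => kd_inv_mem p x ha

/-- **`F = F^p[x]`** if `F / k(x)` is separable and `k` is perfect. -/
theorem kd_adj_eq_top [CharP k p] [PerfectField k] [Algebra.IsSeparable k⟮x⟯ F] (f : F) :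
    f ∈ kdAdj p x := by
  have : ExpChar k p := ExpChar.prime hp.out
  have : ExpChar k⟮x⟯ p := expChar_of_injective_algebraMap (algebraMap k k⟮x⟯).injective p
  have h1 := adjoin_eq_adjoin_pow_expChar_of_isSeparable' k⟮x⟯ F (Set.univ : Set F) p
  rw [adjoin_univ] at h1
  have h2 : adjoin k⟮x⟯ ((· ^ p) '' (Set.univ : Set F)) ≤ kdInter' p x k := by
    rw [adjoin_le_iff]
    rintro _ ⟨s, -, rfl⟩
    exact kd_kdPow_le p x (kd_pow_mem p s)
  have h3 : f ∈ (⊤ : IntermediateField k⟮x⟯ F) := IntermediateField.mem_top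
  rw [h1] at h3
  exact h2 h3

end Adjoin

/-! ### the derivation on `F^p[x]` -/

section Deriv

variable [CharP F p] (D : Derivation k F F) (x : F)

theorem kd_deriv_coe (e : kdPow p F) : D (e : F) = 0 := by
  obtain ⟨s, hs⟩ := (kd_mem_kdPow_iff p).mp e.2
  rw [← hs]
  exact kd_deriv_pow p D s

/-- `D (Q(x)) = Q'(x) · D x` for `Q ∈ F^p[X]`. -/
theorem kd_deriv_aeval (Q : (kdPow p F)[X]) :
    D (aeval x Q) = aeval x (derivative Q) * D x := by
  induction Q using Polynomial.induction_on' with
  | add P Q hP hQ => rw [map_add, map_add, derivative_add, map_add, hP, hQ, add_mul]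
  | monomial n e =>
    rw [aeval_monomial, derivative_monomial, aeval_monomial, D.leibniz, D.leibniz_pow,
      show (algebraMap (kdPow p F) F) e = (e : F) from rfl, kd_deriv_coe, smul_zero, add_zero,
      show (algebraMap (kdPow p F) F) (e * (n : kdPow p F)) = (e : F) * (n : F) by
        push_cast; rfl]
    simp only [smul_eq_mul, nsmul_eq_mul]
    ring

/-- the normalised derivation `D / D x`. -/
def kdNorm (f : F) : F := D f / D x

theorem kdNorm_aeval (hx : D x ≠ 0) (Q : (kdPow p F)[X]) :
    kdNorm D x (aeval x Q) = aeval x (derivative Q) := by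
  unfold kdNorm
  rw [kd_deriv_aeval, mul_div_assoc, div_self hx, mul_one]

theorem kdNorm_iterate_aeval (hx : D x ≠ 0) (m : ℕ) (Q : (kdPow p F)[X]) :
    (kdNorm D x)^[m] (aeval x Q) = aeval x (derivative^[m] Q) := by
  induction m generalizing Q with
  | zero => rfl
  | succ m ih =>
    rw [Function.iterate_succ_apply, kdNorm_aeval p D x hx, ih, Function.iterate_succ_apply]

theorem kdNorm_iterate_zero (m : ℕ) : (kdNorm D x)^[m] 0 = 0 := by
  induction m with
  | zero => rfl
  | succ m ih =>
    rw [Function.iterate_succ_apply]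
    have : kdNorm D x 0 = 0 := by
      unfold kdNorm
      rw [map_zero, zero_div]
    rw [this, ih]

/-- **the kernel of a derivation with a separating element is `F^p`.** -/
theorem kd_exists_pow_of_deriv_eq_zero [CharP k p] [PerfectField k]
    [Algebra.IsSeparable k⟮x⟯ F] (hx : D x ≠ 0) {f : F} (hf : D f = 0) : ∃ s : F, s ^ p = f := by
  obtain ⟨Q₀, hQ₀⟩ := (kd_mem_kdAdj_iff p x).mp (kd_adj_eq_top p (k := k) x f)
  -- reduce modulo `X ^ p - x ^ p`
  set a : kdPow p F := ⟨x ^ p, kd_pow_mem p x⟩ with ha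
  have hmonic : (X ^ p - C a : (kdPow p F)[X]).Monic := monic_X_pow_sub_C a hp.out.ne_zero
  have hroot : aeval x (X ^ p - C a : (kdPow p F)[X]) = 0 := by
    rw [map_sub, map_pow, aeval_X, aeval_C]
    exact sub_self _
  set Q := Q₀ %ₘ (X ^ p - C a) with hQdef
  have hQ : aeval x Q = f := by
    rw [hQdef, ← hQ₀]
    exact aeval_modByMonic_eq_self_of_root hroot
  have hdeg : Q.natDegree < p := by
    have h1 := natDegree_modByMonic_lt Q₀ hmonic (by
      intro h1
      have h2 := congrArg natDegree h1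
      rw [natDegree_X_pow_sub_C, natDegree_one] at h2
      exact hp.out.ne_zero h2)
    rwa [natDegree_X_pow_sub_C] at h1
  set m := Q.natDegree with hm
  rcases Nat.eq_zero_or_pos m with h0 | hpos
  · -- `Q` is constant
    rw [eq_C_of_natDegree_eq_zero h0, aeval_C] at hQ
    rw [← hQ]
    exact (kd_mem_kdPow_iff p).mp (Q.coeff 0).2
  · exfalso
    have hkd : kdNorm D x f = 0 := by
      unfold kdNorm
      rw [hf, zero_div]
    have h1 : (kdNorm D x)^[m] f = 0 := by
      obtain ⟨m', hm'⟩ := Nat.exists_eq_succ_of_ne_zero hpos.ne'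
      rw [hm', Function.iterate_succ_apply, hkd, kdNorm_iterate_zero]
    rw [← hQ, kdNorm_iterate_aeval p D x hx] at h1
    have h2 : (derivative^[m] Q).natDegree = 0 := by
      have := natDegree_iterate_derivative Q m
      omega
    rw [eq_C_of_natDegree_eq_zero h2, aeval_C, coeff_iterate_derivative, zero_add] at h1
    have h3 : (m.descFactorial m • Q.coeff m : kdPow p F) = 0 := by
      apply Subtype.ext
      exact h1
    rw [Nat.descFactorial_self, nsmul_eq_mul] at h3
    have h4 : Q.coeff m ≠ 0 := by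
      have hQ0 : Q ≠ 0 := by
        intro h
        rw [h, natDegree_zero] at hm
        omega
      rw [hm]
      exact leadingCoeff_ne_zero.mpr hQ0
    have h5 : ((m.factorial : ℕ) : kdPow p F) ≠ 0 := by
      intro h
      have h6 : ((m.factorial : ℕ) : F) = 0 := by
        have := congrArg (Subtype.val) h
        simpa using this
      rw [CharP.cast_eq_zero_iff F p] at h6
      exact (hp.out.dvd_factorial.mp h6).not_gt hdeg
    rcases mul_eq_zero.mp h3 with h | h
    · exact h5 h
    · exact h4 h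

theorem kd_deriv_eq_zero_iff [CharP k p] [PerfectField k]
    [Algebra.IsSeparable k⟮x⟯ F] (hx : D x ≠ 0) {f : F} : D f = 0 ↔ ∃ s : F, s ^ p = f := by
  constructor
  · exact kd_exists_pow_of_deriv_eq_zero p D x hx
  · rintro ⟨s, rfl⟩
    exact kd_deriv_pow p D s

end Deriv

end Fermat.Agent.R38
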