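/-
Row 38 (S44), block R (RET), seat R-C (helper34): the Hecke algebra of `S₂(Γ₀(M))` away from `S`
(`S` containing the primes of `M`) acts on the `n`-torsion of `J₀(M)(ℚ̄)`, `T_ℓ` acting as
`heckeTors M n ℓ`.

* `heckeActsOnTors (hMS : ∀ q, q.Prime → q ∣ M → q ∈ S) : HeckeActsOnTors M S`.
Route: a relation between the `T_ℓ` on cusp forms is a relation on `HomPar M` (`F3EP.theta`), and a
relation on `HomPar M` is a relation on the torsion (`R38.heckeWordJ_torsion`).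
-/
import Fermat.Agent.R38.Ret.Defs
import Fermat.Agent.R38.Ret.TorsKill
import Fermat.Agent.F3.EigenPadic.Closed

set_option autoImplicit false

noncomputable section

namespace Fermat.Agent.R38Ret

open ModularCurve ModularCurve.Period CongruenceSubgroup AlgebraicCurve
open Fermat.Agent.F3 Fermat.Agent.F3EC Fermat.Agent.F3EP Fermat.Agent.R38

variable (M : ℕ) [NeZero M] (S : Finset ℕ)

/-- the primes `ℓ ∤ M`, `ℓ ∉ S`. -/
abbrev OutPrime : Type := {ℓ : Nat.Primes // ¬ (ℓ : ℕ) ∣ M ∧ (ℓ : ℕ) ∉ (↑S : Set ℕ)}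

/-- a Hecke word in the Hecke algebra of cusp forms. -/
def tcEvS : FreeAlgebra ℤ (OutPrime M S) →ₐ[ℤ] CuspForm.heckeAlgebra M 2 (↑S : Set ℕ) :=
  FreeAlgebra.lift ℤ (fun ℓ : OutPrime M S =>
    (CuspForm.heckeAlgebra.T (k := 2) ℓ.1.2 ℓ.2.1 ℓ.2.2 : CuspForm.heckeAlgebra M 2 (↑S : Set ℕ)))

/-- a Hecke word on the `n`-torsion. -/
def tcEvT (n : ℕ) : FreeAlgebra ℤ (OutPrime M S) →ₐ[ℤ] Module.End ℤ (Jtors M n) :=
  FreeAlgebra.lift ℤ (fun ℓ : OutPrime M S => heckeTors M n ℓ.1)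

/-- forget the condition `ℓ ∉ S`. -/
def tcMap : FreeAlgebra ℤ (OutPrime M S) →ₐ[ℤ] FreeAlgebra ℤ (GoodPrime M) :=
  FreeAlgebra.lift ℤ (fun ℓ : OutPrime M S => FreeAlgebra.ι ℤ (⟨ℓ.1, ℓ.2.1⟩ : GoodPrime M))

@[simp]
theorem tcEvS_ι (ℓ : OutPrime M S) :
    tcEvS M S (FreeAlgebra.ι ℤ ℓ) = CuspForm.heckeAlgebra.T (k := 2) ℓ.1.2 ℓ.2.1 ℓ.2.2 := by
  simp [tcEvS]

@[simp]
theorem tcEvT_ι (n : ℕ) (ℓ : OutPrime M S) :
    tcEvT M S n (FreeAlgebra.ι ℤ ℓ) = heckeTors M n ℓ.1 := by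
  simp [tcEvT]

@[simp]
theorem tcMap_ι (ℓ : OutPrime M S) :
    tcMap M S (FreeAlgebra.ι ℤ ℓ) = FreeAlgebra.ι ℤ (⟨ℓ.1, ℓ.2.1⟩ : GoodPrime M) := by
  simp [tcMap]

variable {M S}

/-- the value of a Hecke word on the torsion is the restriction of its value on `J₀(M)(ℚ̄)`. -/
theorem tcEvT_coe (n : ℕ) (P : FreeAlgebra ℤ (OutPrime M S)) (y : Jtors M n) :
    ((tcEvT M S n P y : Jtors M n) : JZero M) = heckeWordJ M (tcMap M S P) (y : JZero M) := by
  induction P using FreeAlgebra.induction generalizing y with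
  | grade0 r =>
    rw [AlgHom.commutes, AlgHom.commutes, AlgHom.commutes, Module.algebraMap_end_apply,
      Module.algebraMap_end_apply, Submodule.coe_smul]
  | grade1 ℓ =>
    rw [tcEvT_ι, tcMap_ι, heckeWordJ_ι]
    rfl
  | mul a b ha hb =>
    rw [map_mul, map_mul, map_mul, Module.End.mul_apply, Module.End.mul_apply, ha, hb]
  | add a b ha hb =>
    rw [map_add, map_add, map_add, LinearMap.add_apply, LinearMap.add_apply, Submodule.coe_add,
      ha, hb]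

/-- the value of a Hecke word on `HomPar M` is the image under `θ` of its value on cusp forms. -/
theorem theta_tcEvS (hMS : ∀ q : ℕ, q.Prime → q ∣ M → q ∈ (↑S : Set ℕ))
    (P : FreeAlgebra ℤ (OutPrime M S)) :
    theta (heckeInvolutionComm M) hMS (tcEvS M S P) = heckeWordH M (tcMap M S P) := by
  induction P using FreeAlgebra.induction with
  | grade0 r =>
    rw [AlgHom.commutes, AlgHom.commutes, AlgHom.commutes, eq_intCast, eq_intCast, map_intCast]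
  | grade1 ℓ =>
    rw [tcEvS_ι, tcMap_ι, heckeWordH_ι, theta_T]
    rfl
  | mul a b ha hb =>
    rw [map_mul, map_mul, map_mul, map_mul, ha, hb]
  | add a b ha hb =>
    rw [map_add, map_add, map_add, map_add, ha, hb]

/-- a Hecke word which is `0` on cusp forms is `0` on the torsion. -/
theorem tcEvT_eq_zero (hMS : ∀ q : ℕ, q.Prime → q ∣ M → q ∈ (↑S : Set ℕ)) {n : ℕ} (hn : 0 < n)
    (P : FreeAlgebra ℤ (OutPrime M S)) (hP : tcEvS M S P = 0) : tcEvT M S n P = 0 := by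
  have h1 : heckeWordH M (tcMap M S P) = 0 := by
    rw [← theta_tcEvS hMS, hP, map_zero]
  refine LinearMap.ext fun y => Subtype.ext ?_
  rw [tcEvT_coe, LinearMap.zero_apply, Submodule.coe_zero]
  refine heckeWordJ_torsion _ h1 hn (y : JZero M) ?_
  have h2 := y.2
  rw [Submodule.mem_torsionBy_iff] at h2
  rw [← natCast_zsmul]
  exact h2

/-- every element of the Hecke algebra away from `S ⊇ {q ∣ M}` is the value of a Hecke word. -/
theorem tcEvS_surjective (hMS : ∀ q : ℕ, q.Prime → q ∣ M → q ∈ (↑S : Set ℕ)) :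
    Function.Surjective (tcEvS M S) := by
  rintro ⟨t, ht⟩
  induction ht using Algebra.adjoin_induction with
  | mem x hx =>
    rcases hx with ⟨ℓ, hℓ, hℓN, hℓS, rfl⟩ | ⟨q, hqN, hq, hqS, rfl⟩
    · exact ⟨FreeAlgebra.ι ℤ (⟨⟨ℓ, hℓ⟩, hℓN, hℓS⟩ : OutPrime M S), by rw [tcEvS_ι]; rfl⟩
    · exact absurd (hMS q hq hqN) hqS
  | algebraMap r =>
    exact ⟨algebraMap ℤ _ r, by rw [AlgHom.commutes]; rfl⟩
  | add x y hx' hy' hx hy =>
    obtain ⟨f, hf⟩ := hx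
    obtain ⟨g, hg⟩ := hy
    exact ⟨f + g, by rw [map_add, hf, hg]; rfl⟩
  | mul x y hx' hy' hx hy =>
    obtain ⟨f, hf⟩ := hx
    obtain ⟨g, hg⟩ := hy
    exact ⟨f * g, by rw [map_mul, hf, hg]; rfl⟩

/-- **(R-C)** the Hecke algebra of cusp forms acts on the torsion of `J₀(M)(ℚ̄)`. -/
theorem heckeActsOnTors (hMS : ∀ q : ℕ, q.Prime → q ∣ M → q ∈ (↑S : Set ℕ)) :
    HeckeActsOnTors M S := by
  intro n hn
  let f : FreeAlgebra ℤ (OutPrime M S) →+* CuspForm.heckeAlgebra M 2 (↑S : Set ℕ) :=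
    (tcEvS M S).toRingHom
  let g : FreeAlgebra ℤ (OutPrime M S) →+* Module.End ℤ (Jtors M n) := (tcEvT M S n).toRingHom
  have hf : Function.Surjective f := tcEvS_surjective hMS
  have hker : RingHom.ker f ≤ RingHom.ker g := by
    intro P hP
    rw [RingHom.mem_ker] at hP ⊢
    exact tcEvT_eq_zero hMS hn P hP
  refine ⟨RingHom.liftOfSurjective f hf ⟨g, hker⟩, ?_⟩
  intro ℓ hℓ hℓM hℓS
  have h := RingHom.liftOfRightInverse_comp_apply f (Function.surjInv hf)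
    (Function.rightInverse_surjInv hf) ⟨g, hker⟩
    (FreeAlgebra.ι ℤ (⟨⟨ℓ, hℓ⟩, hℓM, hℓS⟩ : OutPrime M S))
  have h1 : f (FreeAlgebra.ι ℤ (⟨⟨ℓ, hℓ⟩, hℓM, hℓS⟩ : OutPrime M S)) =
      CuspForm.heckeAlgebra.T hℓ hℓM hℓS := tcEvS_ι M S _
  have h2 : g (FreeAlgebra.ι ℤ (⟨⟨ℓ, hℓ⟩, hℓM, hℓS⟩ : OutPrime M S)) = heckeTors M n ⟨ℓ, hℓ⟩ :=
    tcEvT_ι M S n _
  rw [h1] at h
  rw [← h2]
  exact h

end Fermat.Agent.R38Ret
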