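import Fermat.Agent.R38.Ret.Defs
import Fermat.Agent.R38.Ret.TorsKill

/-!
# Row 38, block R (RET): Hecke words on cusp forms  (sub-architect helper44)

`W = FreeAlgebra ℤ (GoodPrime M)` are helper34's Hecke words (`R38/Ret/TorsKill.lean`, with the
values `heckeWordH M` on `HomPar M` and `heckeWordJ M` on `J₀(M)(ℚ̄)`).  Here:

* `cuspWord M : W →ₐ[ℤ] End_ℂ (S₂(Γ₀(M)))`, the value on cusp forms;
* `sWords M S`, the words in the primes outside `S`;
* `CuspToHomPar M` (seat R-C2): a Hecke relation on cusp forms holds on `HomPar M`.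
-/

set_option autoImplicit false

noncomputable section

namespace Fermat.Agent.R38Ret

open ModularCurve AlgebraicCurve Fermat.Agent.F3 Fermat.Agent.R38

variable (M : ℕ) [NeZero M]

/-- the value of a Hecke word on the cusp forms of weight `2` and level `M`. -/
def cuspWord : FreeAlgebra ℤ (GoodPrime M) →ₐ[ℤ]
    Module.End ℂ (CuspForm (CongruenceSubgroup.Gamma0 M) 2) :=
  FreeAlgebra.lift ℤ (fun ℓ : GoodPrime M => CuspForm.heckeTLin 2 ℓ.1.2 ℓ.2)

@[simp]
theorem cuspWord_ι (ℓ : GoodPrime M) :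
    cuspWord M (FreeAlgebra.ι ℤ ℓ) = CuspForm.heckeTLin 2 ℓ.1.2 ℓ.2 := by
  simp [cuspWord]

/-- the words in the primes outside `S`. -/
def sWords (S : Finset ℕ) : Subalgebra ℤ (FreeAlgebra ℤ (GoodPrime M)) :=
  Algebra.adjoin ℤ {w | ∃ ℓ : GoodPrime M, (ℓ.1 : ℕ) ∉ S ∧ w = FreeAlgebra.ι ℤ ℓ}

/-- **(R-C2)** a Hecke relation which holds on the cusp forms of level `M` holds on
`HomPar M = Hom_par(Γ₀(M), ℤ)`. -/
def CuspToHomPar : Prop :=
  ∀ P : FreeAlgebra ℤ (GoodPrime M), cuspWord M P = 0 → heckeWordH M P = 0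

end Fermat.Agent.R38Ret
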